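import Fermat.Agent.MW.Core.API
import Fermat.Agent.MW.Canonical.Generic

/-!
# Canonical families from the trace dual

Existence of the trace-dual data and of finitely many canonical families with bases avoiding given
points, and the criterion that generic divisors are good.
-/

set_option autoImplicit false

noncomputable section

open scoped TensorProduct

namespace Fermat.Agent.MW.CurveBasis

variable {K A : Type} [Field K] [IsAlgClosed K] [CharZero K] [CommRing A] [Algebra K A]
  [IsDedekindDomain A] (D : CurveBasis K A)

/-- Trace-dual data exist. -/
theorem nonempty_dualData : Nonempty (DualData D) := D.nonempty_dualData_aux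

/-- Finitely many canonical families with bases avoiding any `g` given points. For genus zero
there is no canonical family, as `exact` asks for a member of the empty family. -/
theorem exists_canonFamilies (hg : 0 < D.genus) :
    ∃ Fs : Finset (CanonFamily D), ∀ E : Multiset (Pt K A), Multiset.card E ≤ D.genus →
      ∃ F ∈ Fs, ∀ P ∈ E, P ∉ F.R :=
  D.exists_canonFamilies_aux hg

omit [CharZero K] in
/-- For a good divisor off the base, the canonical determinant does not vanish. -/
theorem det_ne_zero_of_good (F : CanonFamily D) (P : Fin D.genus → Pt K A)
    (hgood : D.Good (Finset.univ.val.map P)) (hR : ∀ j, P j ∉ F.R) :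
    Matrix.det (Matrix.of fun j i => D.evSec (F.k * D.embDeg) (P j) (F.W i)) ≠ 0 :=
  D.det_ne_zero_of_good_aux F P hgood hR

omit [IsAlgClosed K] [IsDedekindDomain A] in
/-- Points with algebraically independent projections form a good divisor. -/
theorem good_of_algebraicIndependent (L : Type) [Field L] [Algebra K L] [IsAlgClosed L]
    [IsDedekindDomain (L ⊗[K] A)] (φ : Fin D.genus → (L ⊗[K] A →ₐ[L] L))
    (h : AlgebraicIndependent K fun j => φ j (1 ⊗ₜ D.e D.projDeg)) :
    (D.baseChange L).Good (Finset.univ.val.map fun j => some (φ j)) :=
  D.good_of_algebraicIndependent_aux L φ h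

end Fermat.Agent.MW.CurveBasis
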