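import Fermat.Agent.MW.Core.Degree
import Mathlib.RingTheory.IntegralClosure.IntegralRestrict
import Mathlib.LinearAlgebra.FiniteDimensional.Lemmas
import Mathlib.Algebra.Algebra.Operations
import Mathlib.LinearAlgebra.Isomorphisms

/-!
# Points, colengths, divisors of zeros

Over an algebraically closed field the maximal ideals are the points; the colength of a principal
ideal is the pole order of its generator, so a section of degree `n` has exactly `n` zeros.
-/

set_option autoImplicit false

noncomputable section

open scoped TensorProduct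
open Module UniqueFactorizationMonoid

namespace Fermat.Agent.MW

variable {K A : Type} [Field K] [CommRing A] [Algebra K A] (D : CurveBasis K A)

/-- `f - f(P)` vanishes at `P`. -/
theorem sub_algebraMap_mem_ptIdeal (φ : A →ₐ[K] K) (f : A) :
    f - algebraMap K A (φ f) ∈ ptIdeal φ := by
  simp [ptIdeal, RingHom.mem_ker]

instance ptIdeal_isMaximal (φ : A →ₐ[K] K) : (ptIdeal φ).IsMaximal :=
  RingHom.ker_isMaximal_of_surjective φ fun c => ⟨algebraMap K A c, φ.commutes c⟩

/-- A point is determined by its maximal ideal. -/
theorem ptIdeal_injective : Function.Injective (ptIdeal (K := K) (A := A)) := by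
  intro φ ψ h
  refine AlgHom.ext fun f => ?_
  have hm := h ▸ sub_algebraMap_mem_ptIdeal φ f
  simp only [ptIdeal, RingHom.mem_ker, map_sub, AlgHom.commutes, sub_eq_zero] at hm
  simpa using hm.symm

/-- The ideal of a multiset of finite points. -/
def divIdeal (F : Multiset (A →ₐ[K] K)) : Ideal A := (F.map ptIdeal).prod

@[simp] theorem divIdeal_zero : divIdeal (0 : Multiset (A →ₐ[K] K)) = 1 := by simp [divIdeal]

/-- The ideal of a sum of divisors is the product of the ideals. -/
theorem divIdeal_add (F G : Multiset (A →ₐ[K] K)) :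
    divIdeal (F + G) = divIdeal F * divIdeal G := by simp [divIdeal]

/-- Adding a point multiplies the ideal of a divisor by the ideal of the point. -/
theorem divIdeal_cons (φ : A →ₐ[K] K) (F : Multiset (A →ₐ[K] K)) :
    divIdeal (φ ::ₘ F) = ptIdeal φ * divIdeal F := by simp [divIdeal]

open scoped Classical in
/-- The finite part of a divisor. -/
def finPart (E : Multiset (Pt K A)) : Multiset (A →ₐ[K] K) := E.filterMap id

/-- The finite part is additive. -/
@[simp] theorem finPart_add (E E' : Multiset (Pt K A)) :
    finPart (E + E') = finPart E + finPart E' := Multiset.filterMap_add ..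

/-- The finite part of a divisor of finite points. -/
@[simp] theorem finPart_map_some (F : Multiset (A →ₐ[K] K)) :
    finPart (F.map some) = F := by simp [finPart, Multiset.filterMap_map]

@[simp] theorem finPart_replicate_none (j : ℕ) :
    finPart (Multiset.replicate j (none : Pt K A)) = 0 := by
  induction j <;> simp_all [finPart, Multiset.replicate_succ]

open scoped Classical in
/-- A divisor is its finite part plus a multiple of the point at infinity. -/
theorem eq_finPart_add (E : Multiset (Pt K A)) :
    E = (finPart E).map some + Multiset.replicate (E.count none) none := by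
  induction E using Multiset.induction_on with
  | empty => simp [finPart]
  | cons P E ih =>
    rcases P with _ | φ
    · rw [show finPart (none ::ₘ E) = finPart E by simp [finPart], Multiset.count_cons_self,
        Multiset.replicate_succ, Multiset.add_cons, ← ih]
    · rw [show finPart (some φ ::ₘ E) = φ ::ₘ finPart E by simp [finPart],
        Multiset.count_cons_of_ne (by simp), Multiset.map_cons, Multiset.cons_add, ← ih]

open scoped Classical in
/-- The degree of a divisor is that of its finite part plus the multiplicity at infinity. -/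
theorem card_eq_finPart_add (E : Multiset (Pt K A)) :
    Multiset.card E = Multiset.card (finPart E) + E.count none := by
  conv_lhs => rw [eq_finPart_add E]
  simp

/-- Membership in the finite part. -/
theorem mem_finPart {E : Multiset (Pt K A)} {φ : A →ₐ[K] K} :
    φ ∈ finPart E ↔ some φ ∈ E := by simp [finPart]

open scoped Classical in
/-- Comparison of divisors by finite part and multiplicity at infinity. -/
theorem le_iff_finPart {E E' : Multiset (Pt K A)} :
    E ≤ E' ↔ finPart E ≤ finPart E' ∧ E.count none ≤ E'.count none := by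
  constructor
  · exact fun h => ⟨Multiset.filterMap_le_filterMap _ h, Multiset.count_le_of_le _ h⟩
  · intro h
    rw [eq_finPart_add E, eq_finPart_add E']
    exact add_le_add (Multiset.map_le_map h.1) ((Multiset.replicate_le_replicate _).mpr h.2)

variable [IsAlgClosed K] [IsDedekindDomain A]

namespace CurveBasis

include D in
omit [IsAlgClosed K] in
/-- The coordinate ring is not a field. -/
theorem not_isField : ¬ IsField A := by
  intro h
  obtain ⟨b, hb⟩ := h.mul_inv_cancel (D.e_ne_zero D.exists_notMem_gaps_pos)
  have hb0 : b ≠ 0 := fun h => by simp [h] at hb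
  have := D.deg_mul (D.e_ne_zero D.exists_notMem_gaps_pos) hb0
  rw [hb, D.deg_e D.exists_notMem_gaps_pos, ← map_one (algebraMap K A), D.deg_algebraMap] at this
  omega

include D in
omit [IsAlgClosed K] in
/-- Maximal ideals of the coordinate ring are nonzero. -/
theorem ne_bot_of_isMaximal (M : Ideal A) [hM : M.IsMaximal] : M ≠ ⊥ :=
  Ring.ne_bot_of_isMaximal_of_not_isField hM D.not_isField

include D in
omit [IsAlgClosed K] in
/-- The ideal of a point is nonzero. -/
theorem ptIdeal_ne_bot (φ : A →ₐ[K] K) : ptIdeal φ ≠ ⊥ := D.ne_bot_of_isMaximal _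

include D in
/-- Over an algebraically closed field every maximal ideal is the ideal of a point. -/
theorem exists_ptIdeal_eq (M : Ideal A) [M.IsMaximal] : ∃ φ : A →ₐ[K] K, ptIdeal φ = M := by
  have := D.finite_quotient M (D.ne_bot_of_isMaximal M)
  let := Ideal.Quotient.field M
  have : Algebra.IsIntegral K (A ⧸ M) := Algebra.IsIntegral.of_finite K _
  let ε : K ≃ₐ[K] (A ⧸ M) := AlgEquiv.ofBijective (Algebra.ofId K (A ⧸ M))
    IsAlgClosed.algebraMap_bijective_of_isIntegral
  refine ⟨(ε.symm : (A ⧸ M) →ₐ[K] K).comp (Ideal.Quotient.mkₐ K M), ?_⟩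
  ext f
  simp [ptIdeal, RingHom.mem_ker, Ideal.Quotient.eq_zero_iff_mem]

include D in
omit [IsAlgClosed K] in
/-- The ideal of a divisor is nonzero. -/
theorem divIdeal_ne_bot (F : Multiset (A →ₐ[K] K)) : divIdeal F ≠ ⊥ := by
  induction F using Multiset.induction_on with
  | empty => simp
  | cons φ F ih => rw [divIdeal_cons]; exact mul_ne_zero (D.ptIdeal_ne_bot φ) ih

include D in
omit [IsAlgClosed K] in
theorem prime_ptIdeal (φ : A →ₐ[K] K) : Prime (ptIdeal φ) :=
  Ideal.prime_of_isPrime (D.ptIdeal_ne_bot φ) inferInstance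

include D in
omit [IsAlgClosed K] in
theorem normalizedFactors_divIdeal (F : Multiset (A →ₐ[K] K)) :
    normalizedFactors (divIdeal F) = F.map ptIdeal :=
  normalizedFactors_prod_of_prime fun I hI => by
    obtain ⟨φ, -, rfl⟩ := Multiset.mem_map.mp hI
    exact D.prime_ptIdeal φ

include D in
omit [IsAlgClosed K] in
/-- A divisor of finite points is determined by its ideal. -/
theorem divIdeal_injective : Function.Injective (divIdeal (K := K) (A := A)) := fun F G h =>
  Multiset.map_injective ptIdeal_injective (by
    rw [← D.normalizedFactors_divIdeal, ← D.normalizedFactors_divIdeal, h])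

include D in
omit [IsAlgClosed K] in
theorem divIdeal_dvd_iff {F G : Multiset (A →ₐ[K] K)} : divIdeal F ∣ divIdeal G ↔ F ≤ G := by
  rw [dvd_iff_normalizedFactors_le_normalizedFactors (D.divIdeal_ne_bot F) (D.divIdeal_ne_bot G),
    D.normalizedFactors_divIdeal, D.normalizedFactors_divIdeal,
    Multiset.map_le_map_iff ptIdeal_injective]

include D in
/-- Every nonzero ideal is the ideal of a divisor. -/
theorem exists_divIdeal_eq (I : Ideal A) (hI : I ≠ ⊥) : ∃ F, divIdeal (K := K) F = I := by
  induction I using UniqueFactorizationMonoid.induction_on_prime with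
  | h₁ => exact absurd rfl hI
  | h₂ J hJ => exact ⟨0, by rw [divIdeal_zero, Ideal.isUnit_iff.mp hJ, Ideal.one_eq_top]⟩
  | h₃ J P hJ hP ih =>
    obtain ⟨F, hF⟩ := ih hJ
    have : P.IsMaximal := (Ideal.isPrime_of_prime hP).isMaximal hP.ne_zero
    obtain ⟨φ, hφ⟩ := D.exists_ptIdeal_eq P
    exact ⟨φ ::ₘ F, by rw [divIdeal_cons, hφ, hF]⟩

include D in
omit [IsAlgClosed K] in
/-- The colength of the ideal of a divisor is its degree. -/
theorem finrank_quotient_divIdeal (F : Multiset (A →ₐ[K] K)) :
    finrank K (A ⧸ divIdeal F) = Multiset.card F := by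
  induction F using Multiset.induction_on with
  | empty =>
    have : Subsingleton (A ⧸ divIdeal (0 : Multiset (A →ₐ[K] K))) :=
      Ideal.Quotient.subsingleton_iff.mpr (by simp)
    simp [finrank_zero_of_subsingleton]
  | cons φ F ih =>
    set I := divIdeal F
    set J := divIdeal (φ ::ₘ F)
    have hJ : J = ptIdeal φ * I := divIdeal_cons φ F
    have hJI : J ≤ I := hJ ▸ Ideal.mul_le_right
    have hne : J ≠ I := fun h => by
      have := D.divIdeal_injective h
      simpa using congrArg Multiset.card this
    obtain ⟨b, hbI, hbJ⟩ := SetLike.exists_of_lt (lt_of_le_of_ne hJI hne)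
    have := D.finite_quotient J (D.divIdeal_ne_bot _)
    let π : (A ⧸ J) →ₗ[K] (A ⧸ I) := (Ideal.Quotient.factorₐ K hJI).toLinearMap
    have hπ : Function.Surjective π := Ideal.Quotient.factor_surjective hJI
    have hker : LinearMap.ker π = K ∙ (Ideal.Quotient.mk J b) := by
      apply le_antisymm
      · intro x hx
        obtain ⟨a, rfl⟩ := Ideal.Quotient.mk_surjective x
        have haI : a ∈ I := Ideal.Quotient.eq_zero_iff_mem.mp hx
        have hsup : Ideal.span {b} ⊔ J = I := by
          have hle : Ideal.span {b} ⊔ J ≤ I :=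
            sup_le ((Ideal.span_singleton_le_iff_mem _).mpr hbI) hJI
          obtain ⟨J', hJ'⟩ := Ideal.dvd_iff_le.mpr hle
          have hI0 : I ≠ 0 := D.divIdeal_ne_bot F
          have hdvd : J' ∣ ptIdeal φ := by
            have : Ideal.span {b} ⊔ J ∣ J := Ideal.dvd_iff_le.mpr le_sup_right
            rw [hJ', hJ, mul_comm (ptIdeal φ)] at this
            exact (mul_dvd_mul_iff_left hI0).mp this
          by_cases htop : J' = ⊤
          · rw [hJ', htop, ← Ideal.one_eq_top, mul_one]
          · have h := ((inferInstance : (ptIdeal φ).IsMaximal).eq_of_le htop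
              (Ideal.dvd_iff_le.mp hdvd)).symm
            refine absurd ?_ hbJ
            have : b ∈ I * J' := hJ' ▸ Ideal.mem_sup_left (Ideal.mem_span_singleton_self b)
            rwa [h, mul_comm, ← hJ] at this
        obtain ⟨u, hu, w, hw, rfl⟩ := Submodule.mem_sup.mp (hsup.ge haI)
        obtain ⟨c, rfl⟩ := Ideal.mem_span_singleton'.mp hu
        refine Submodule.mem_span_singleton.mpr ⟨φ c, ?_⟩
        rw [← Ideal.Quotient.mk_eq_mk, ← Submodule.Quotient.mk_smul, Ideal.Quotient.mk_eq_mk,
          Ideal.Quotient.eq]
        have h2 : (c - algebraMap K A (φ c)) * b ∈ J :=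
          hJ ▸ Ideal.mul_mem_mul (sub_algebraMap_mem_ptIdeal φ c) hbI
        have : φ c • b - (c * b + w) = -((c - algebraMap K A (φ c)) * b) - w := by
          rw [Algebra.smul_def]; ring
        rw [this]
        exact sub_mem (neg_mem h2) hw
      · rw [Submodule.span_singleton_le_iff_mem, LinearMap.mem_ker]
        exact Ideal.Quotient.eq_zero_iff_mem.mpr hbI
    have h1 := LinearMap.finrank_range_add_finrank_ker π
    rw [hker, finrank_span_singleton (fun h => hbJ (Ideal.Quotient.eq_zero_iff_mem.mp h)),
      LinearMap.range_eq_top.mpr hπ, finrank_top, ih] at h1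
    simpa using h1.symm

include D in
omit [IsAlgClosed K] in
/-- The colength of a principal ideal is the pole order of its generator. -/
theorem finrank_quotient_span {f : A} (hf : f ≠ 0) :
    finrank K (A ⧸ Ideal.span {f}) = D.deg f := by
  set n := D.deg f + 2 * D.genus
  let q : D.lev n →ₗ[K] A ⧸ Ideal.span {f} :=
    (Ideal.Quotient.mkₐ K _).toLinearMap.comp (Submodule.subtype _)
  have hq : Function.Surjective q := fun y => by
    obtain ⟨x, rfl⟩ := Ideal.Quotient.mk_surjective y
    obtain ⟨a, ha, b, hb, rfl⟩ :=
      Submodule.mem_sup.mp (D.mem_sup_lev hf (Ideal.mem_span_singleton_self f) x)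
    exact ⟨⟨b, hb⟩, by simp [q, n, Ideal.Quotient.eq_zero_iff_mem.mpr
      (show a ∈ Ideal.span {f} from ha)]⟩
  let μ : D.lev (2 * D.genus) →ₗ[K] D.lev n :=
    ((LinearMap.mulLeft K f).comp (Submodule.subtype _)).codRestrict _ fun x =>
      D.mul_mem_lev (D.mem_lev_deg f) x.2
  have hμ : Function.Injective μ := fun x y h =>
    Subtype.ext (mul_left_cancel₀ hf (congrArg Subtype.val h))
  have hker : LinearMap.ker q = LinearMap.range μ := by
    ext x
    constructor
    · intro hx
      obtain ⟨g, hg⟩ := Ideal.mem_span_singleton.mp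
        (Ideal.Quotient.eq_zero_iff_mem.mp (show Ideal.Quotient.mk _ (x : A) = 0 from hx))
      refine ⟨⟨g, D.mem_lev_iff_deg_le.mpr ?_⟩, Subtype.ext hg.symm⟩
      by_cases hg0 : g = 0
      · simp [hg0, D.deg_zero]
      · have := D.deg_le_of_mem_lev x.2
        rw [hg, D.deg_mul hf hg0] at this
        simpa [n] using this
    · rintro ⟨g, rfl⟩
      exact Ideal.Quotient.eq_zero_iff_mem.mpr
        (Ideal.mul_mem_right _ _ (Ideal.mem_span_singleton_self f))
  have h1 := LinearMap.finrank_range_add_finrank_ker q
  rw [hker, LinearMap.finrank_range_of_inj hμ, LinearMap.range_eq_top.mpr hq, finrank_top,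
    D.finrank_lev (by omega), D.finrank_lev (by omega)] at h1
  omega

include D in
theorem map_ptIdeal_zerosFin {f : A} (hf : f ≠ 0) :
    (zerosFin (K := K) f).map ptIdeal = normalizedFactors (Ideal.span {f}) := by
  classical
  obtain ⟨F, hF⟩ := D.exists_divIdeal_eq (Ideal.span {f}) (by simpa using hf)
  have hfac := D.normalizedFactors_divIdeal F
  rw [hF] at hfac
  have : zerosFin (K := K) f = F := by
    rw [zerosFin, hfac, Multiset.filterMap_map]
    conv_rhs => rw [← Multiset.filterMap_some F]
    congr 1
    funext φ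
    have h : ∃ ψ : A →ₐ[K] K, ptIdeal ψ = ptIdeal φ := ⟨φ, rfl⟩
    simp only [Function.comp_apply, dif_pos h]
    exact congrArg some (ptIdeal_injective h.choose_spec)
  rw [this, hfac]

include D in
/-- The ideal of the finite zeros of `f` is `(f)`. -/
theorem divIdeal_zerosFin {f : A} (hf : f ≠ 0) :
    divIdeal (zerosFin (K := K) f) = Ideal.span {f} := by
  rw [divIdeal, D.map_ptIdeal_zerosFin hf, Ideal.prod_normalizedFactors_eq_self (by simpa using hf)]

include D in
/-- A divisor with ideal `(f)` is the divisor of finite zeros of `f`. -/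
theorem zerosFin_eq_of_divIdeal {f : A} (hf : f ≠ 0) {F : Multiset (A →ₐ[K] K)}
    (h : divIdeal F = Ideal.span {f}) : zerosFin (K := K) f = F :=
  D.divIdeal_injective ((D.divIdeal_zerosFin hf).trans h.symm)

/-- A nonzero function has as many finite zeros as its pole order. -/
theorem card_zerosFin {t : A} (ht : t ≠ 0) : Multiset.card (zerosFin (K := K) t) = D.deg t := by
  rw [← D.finrank_quotient_divIdeal, D.divIdeal_zerosFin ht, D.finrank_quotient_span ht]

omit [IsAlgClosed K] in
/-- The finite part of a divisor of zeros. -/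
theorem finPart_zeros (n : ℕ) (t : A) : finPart (D.zeros n t) = zerosFin t := by
  simp [CurveBasis.zeros]

include D in
/-- A function lies in the ideal of a divisor exactly when it vanishes on it. -/
theorem mem_divIdeal_iff {t : A} (ht : t ≠ 0) {F : Multiset (A →ₐ[K] K)} :
    t ∈ divIdeal F ↔ F ≤ zerosFin t := by
  rw [← D.divIdeal_dvd_iff, D.divIdeal_zerosFin ht, Ideal.dvd_iff_le,
    Ideal.span_singleton_le_iff_mem]

/-- A nonzero section of degree `n` has exactly `n` zeros. -/
theorem card_zeros {n : ℕ} {t : A} (ht : t ≠ 0) (htn : t ∈ D.lev n) :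
    Multiset.card (D.zeros n t) = n := by
  simp only [CurveBasis.zeros, Multiset.card_add, Multiset.card_map, Multiset.card_replicate,
    D.card_zerosFin ht]
  have := D.deg_le_of_mem_lev htn
  omega

open scoped Classical in
omit [IsAlgClosed K] in
/-- The multiplicity of the point at infinity in a divisor of zeros. -/
theorem count_none_zeros (n : ℕ) (t : A) : (D.zeros n t).count none = n - D.deg t := by
  simp [CurveBasis.zeros, Multiset.count_eq_zero_of_notMem]

/-- A section vanishes at a point exactly when the point is among its zeros. -/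
theorem evSec_eq_zero_iff {n : ℕ} {t : A} (ht : t ≠ 0) (htn : t ∈ D.lev n) (P : Pt K A) :
    D.evSec n P t = 0 ↔ P ∈ D.zeros n t := by
  rcases P with _ | φ
  · show D.coeff n t = 0 ↔ _
    simp only [CurveBasis.zeros, Multiset.mem_add, Multiset.mem_map, reduceCtorEq, and_false,
      exists_false, false_or, Multiset.mem_replicate, and_true, ne_eq]
    have hle := D.deg_le_of_mem_lev htn
    constructor
    · intro h hz
      have : D.deg t = n := by omega
      exact D.coeff_deg_ne_zero ht (this ▸ h)
    · intro h
      exact D.coeff_eq_zero_of_deg_lt (by omega)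
  · show φ t = 0 ↔ _
    rw [← mem_finPart, D.finPart_zeros, ← Multiset.singleton_le, ← D.mem_divIdeal_iff ht]
    simp [divIdeal, ptIdeal, RingHom.mem_ker]

omit [IsAlgClosed K] [IsDedekindDomain A] in
/-- Evaluation of sections is multiplicative. -/
theorem evSec_mul {m n : ℕ} {s t : A} (hs : s ∈ D.lev m) (ht : t ∈ D.lev n) (P : Pt K A) :
    D.evSec (m + n) P (s * t) = D.evSec m P s * D.evSec n P t := by
  rcases P with _ | φ
  · exact D.coeff_mul hs ht
  · exact map_mul φ s t

/-- The zeros of a product are the sums of the zeros. -/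
theorem zeros_mul {m n : ℕ} {s t : A} (hs : s ≠ 0) (ht : t ≠ 0) (hsm : s ∈ D.lev m)
    (htn : t ∈ D.lev n) : D.zeros (m + n) (s * t) = D.zeros m s + D.zeros n t := by
  have h1 : zerosFin (K := K) (s * t) = zerosFin s + zerosFin t :=
    D.zerosFin_eq_of_divIdeal (mul_ne_zero hs ht) (by
      rw [divIdeal_add, D.divIdeal_zerosFin hs, D.divIdeal_zerosFin ht,
        Ideal.span_singleton_mul_span_singleton])
  have := D.deg_le_of_mem_lev hsm
  have := D.deg_le_of_mem_lev htn
  simp only [CurveBasis.zeros, h1, Multiset.map_add, D.deg_mul hs ht]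
  rw [show m + n - (D.deg s + D.deg t) = (m - D.deg s) + (n - D.deg t) by omega,
    Multiset.replicate_add]
  abel

include D in
omit D [IsAlgClosed K] in
theorem zerosFin_smul (t : A) {c : K} (hc : c ≠ 0) : zerosFin (K := K) (c • t) = zerosFin t := by
  have : Ideal.span {c • t} = Ideal.span {t} := by
    rw [Algebra.smul_def, Ideal.span_singleton_mul_left_unit
      ((IsUnit.mk0 c hc).map (algebraMap K A))]
  unfold zerosFin
  rw [this]

omit [IsAlgClosed K] [IsDedekindDomain A] in
/-- A nonzero scalar does not change the pole order. -/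
theorem deg_smul (t : A) {c : K} (hc : c ≠ 0) : D.deg (c • t) = D.deg t := by
  by_cases ht : t = 0
  · simp [ht]
  refine D.deg_eq_of_mem_lev (Submodule.smul_mem _ c (D.mem_lev_deg t)) ?_
  simpa using mul_ne_zero hc (D.coeff_deg_ne_zero ht)

omit [IsAlgClosed K] in
/-- A nonzero scalar does not change the divisor of zeros. -/
theorem zeros_smul (n : ℕ) (t : A) {c : K} (hc : c ≠ 0) : D.zeros n (c • t) = D.zeros n t := by
  simp only [CurveBasis.zeros, zerosFin_smul t hc, D.deg_smul t hc]

/-- Exact division of sections. -/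
theorem exists_eq_mul_of_zeros_le {m n : ℕ} {s t : A} (hs : s ≠ 0) (ht : t ≠ 0)
    (hsm : s ∈ D.lev m) (htn : t ∈ D.lev (m + n))
    (h : D.zeros m s ≤ D.zeros (m + n) t) : ∃ u ∈ D.lev n, t = s * u := by
  classical
  obtain ⟨hfin, hnone⟩ := le_iff_finPart.mp h
  rw [D.count_none_zeros, D.count_none_zeros] at hnone
  rw [D.finPart_zeros, D.finPart_zeros, ← D.mem_divIdeal_iff ht, D.divIdeal_zerosFin hs,
    Ideal.mem_span_singleton] at hfin
  obtain ⟨u, rfl⟩ := hfin
  have hu : u ≠ 0 := fun h => by simp [h] at ht
  refine ⟨u, D.mem_lev_iff_deg_le.mpr ?_, rfl⟩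
  rw [D.deg_mul hs hu] at hnone
  have := D.deg_le_of_mem_lev htn
  rw [D.deg_mul hs hu] at this
  have := D.deg_le_of_mem_lev hsm
  omega

/-- Sections with the same divisor of zeros are proportional. -/
theorem exists_smul_eq_of_zeros_eq {n : ℕ} {s t : A} (hs : s ≠ 0) (ht : t ≠ 0)
    (hsn : s ∈ D.lev n) (htn : t ∈ D.lev n) (h : D.zeros n s = D.zeros n t) :
    ∃ c : K, c ≠ 0 ∧ t = c • s := by
  obtain ⟨u, hu, rfl⟩ :=
    D.exists_eq_mul_of_zeros_le (n := 0) hs ht hsn (by simpa using htn) (by simpa using h.le)
  refine ⟨D.coeff 0 u, ?_, ?_⟩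
  · intro h0
    refine ht ?_
    rw [D.eq_algebraMap_of_deg_eq_zero (Nat.eq_zero_of_le_zero (D.deg_le_of_mem_lev hu)), h0]
    simp
  · rw [Algebra.smul_def, mul_comm,
      ← D.eq_algebraMap_of_deg_eq_zero (Nat.eq_zero_of_le_zero (D.deg_le_of_mem_lev hu))]

end CurveBasis

end Fermat.Agent.MW
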