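import Fermat.Agent.MW.Core.Defs2
import Fermat.Agent.MW.Core.Points
import Mathlib.RingTheory.Kaehler.Basic
import Mathlib.RingTheory.Finiteness.Nakayama
import Mathlib.RingTheory.DedekindDomain.Dvr
import Mathlib.RingTheory.DiscreteValuationRing.TFAE
import Mathlib.LinearAlgebra.Dual.Lemmas

/-!
# Base change of the affine ring of a smooth curve

The base change of the affine ring to an algebraically closed extension field is again Dedekind:
on the base the module of differentials is locally generated by one differential, so at every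
point over the extension the tangent space has dimension at most one.
-/

set_option autoImplicit false

noncomputable section

open scoped TensorProduct
open KaehlerDifferential

namespace Fermat.Agent.MW

variable {K A : Type} [Field K] [IsAlgClosed K] [CharZero K] [CommRing A] [Algebra K A]
  [IsDedekindDomain A]

omit [CharZero K] in
/-- Locally on `A` the differentials are generated by a single differential. -/
theorem span_locally_monogenic_kaehler (D : CurveBasis K A) :
    Ideal.span {u : A | ∃ w : A, ∀ x : A,
      u • KaehlerDifferential.D K A x ∈ Submodule.span A {KaehlerDifferential.D K A w}} = ⊤ := by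
  have := D.finiteType
  by_contra hne
  obtain ⟨M, hM, hle⟩ := Ideal.exists_le_maximal _ hne
  obtain ⟨φ, hφ⟩ := D.exists_ptIdeal_eq M
  have hMbot : M ≠ ⊥ := D.ne_bot_of_isMaximal M
  have hlt : M ^ 2 < M := Ideal.pow_succ_lt_pow hMbot 1 |>.trans_le (by rw [pow_one])
  obtain ⟨w, hwM, hw⟩ := SetLike.exists_of_lt hlt
  have hsup : Ideal.span {w} ⊔ M ^ 2 = M := by
    have hdvd : Ideal.span {w} ⊔ M ^ 2 ∣ M ^ 2 := Ideal.dvd_iff_le.mpr le_sup_right
    obtain ⟨i, hi, hass⟩ := (dvd_prime_pow (Ideal.prime_of_isPrime hMbot hM.isPrime) 2).mp hdvd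
    rw [associated_iff_eq] at hass
    have h1 : Ideal.span {w} ⊔ M ^ 2 ≤ M :=
      sup_le ((Ideal.span_singleton_le_iff_mem _).mpr hwM) hlt.le
    interval_cases i
    · rw [hass, pow_zero, Ideal.one_eq_top, top_le_iff] at h1
      exact absurd h1 hM.ne_top
    · rw [hass, pow_one]
    · exact absurd (hass.le (Ideal.mem_sup_left (Ideal.mem_span_singleton_self w))) hw
  set S := Submodule.span A {KaehlerDifferential.D K A w}
  have hQ : (⊤ : Submodule A (Ω[A⁄K] ⧸ S)) ≤ M • ⊤ := by
    rintro q -
    obtain ⟨z, rfl⟩ := Submodule.Quotient.mk_surjective S q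
    have hz : z ∈ Submodule.span A (Set.range (KaehlerDifferential.D K A)) := by
      rw [KaehlerDifferential.span_range_derivation]
      exact Submodule.mem_top
    induction hz using Submodule.span_induction with
    | mem y hy =>
      obtain ⟨x, rfl⟩ := hy
      have hx : x - algebraMap K A (φ x) ∈ Ideal.span {w} ⊔ M ^ 2 := by
        rw [hsup, ← hφ]
        exact sub_algebraMap_mem_ptIdeal φ x
      obtain ⟨p, hp, r, hr, hpr⟩ := Submodule.mem_sup.mp hx
      obtain ⟨a, rfl⟩ := Ideal.mem_span_singleton'.mp hp
      have e : KaehlerDifferential.D K A x = a • KaehlerDifferential.D K A w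
          + w • KaehlerDifferential.D K A a + KaehlerDifferential.D K A r := by
        conv_lhs => rw [show x = a * w + r + algebraMap K A (φ x) by rw [hpr]; ring]
        simp [Derivation.leibniz]
      rw [e, Submodule.Quotient.mk_add, Submodule.Quotient.mk_add]
      refine add_mem (add_mem ?_ ?_) ?_
      · have h0 : Submodule.Quotient.mk (p := S) (a • KaehlerDifferential.D K A w) = 0 :=
          (Submodule.Quotient.mk_eq_zero S).mpr
            (Submodule.smul_mem _ a (Submodule.subset_span rfl))
        rw [h0]
        exact zero_mem _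
      · rw [Submodule.Quotient.mk_smul]
        exact Submodule.smul_mem_smul hwM Submodule.mem_top
      · rw [pow_two] at hr
        clear e hpr hx
        induction hr using Submodule.mul_induction_on' with
        | mem_mul_mem b hb c hc =>
          rw [Derivation.leibniz, Submodule.Quotient.mk_add, Submodule.Quotient.mk_smul,
            Submodule.Quotient.mk_smul]
          exact add_mem (Submodule.smul_mem_smul hb Submodule.mem_top)
            (Submodule.smul_mem_smul hc Submodule.mem_top)
        | add b _ c _ hb hc =>
          rw [map_add, Submodule.Quotient.mk_add]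
          exact add_mem hb hc
    | zero => simp
    | add a b _ _ ha hb => rw [Submodule.Quotient.mk_add]; exact add_mem ha hb
    | smul a z _ hz => rw [Submodule.Quotient.mk_smul]; exact Submodule.smul_mem _ a hz
  obtain ⟨r, hr, hkill⟩ := Submodule.exists_sub_one_mem_and_smul_eq_zero_of_fg_of_le_smul
    M ⊤ Module.Finite.fg_top hQ
  have hrU : r ∈ M := hle (Ideal.subset_span ⟨w, fun x => by
    rw [← Submodule.Quotient.mk_eq_zero, Submodule.Quotient.mk_smul]
    exact hkill _ Submodule.mem_top⟩)
  exact hM.ne_top ((Ideal.eq_top_iff_one M).mpr (by simpa using sub_mem hrU hr))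

omit [CharZero K] in
/-- The base change to an algebraically closed field is Dedekind. -/
theorem isDedekindDomain_baseChange (D : CurveBasis K A) (L : Type) [Field L] [Algebra K L]
    [IsAlgClosed L] : IsDedekindDomain (L ⊗[K] A) := by
  classical
  set DL := D.baseChange L
  have : Nontrivial (L ⊗[K] A) := ⟨⟨1, 0, fun h => by
    have := DL.coeff_e (m := 0) DL.zero_notMem
    rw [DL.e_zero, h] at this
    simp at this⟩⟩
  have : NoZeroDivisors (L ⊗[K] A) := ⟨fun {a b} hab => by
    by_contra hne
    push Not at hne
    have := DL.coeff_mul (DL.mem_lev_deg a) (DL.mem_lev_deg b)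
    rw [hab, map_zero] at this
    exact mul_ne_zero (DL.coeff_deg_ne_zero hne.1) (DL.coeff_deg_ne_zero hne.2) this.symm⟩
  have : IsDomain (L ⊗[K] A) := NoZeroDivisors.to_isDomain _
  have := DL.finiteType
  have : IsNoetherianRing (L ⊗[K] A) := Algebra.FiniteType.isNoetherianRing L _
  have hmax : ∀ P : Ideal (L ⊗[K] A), P ≠ ⊥ → P.IsPrime → P.IsMaximal := by
    intro P hP hPp
    have := DL.finite_quotient P hP
    have : IsDomain ((L ⊗[K] A) ⧸ P) := Ideal.Quotient.isDomain P
    have : Algebra.IsIntegral L ((L ⊗[K] A) ⧸ P) := Algebra.IsIntegral.of_finite L _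
    exact Ideal.Quotient.maximal_of_isField _
      (isField_of_isIntegral_of_isField' (Field.toIsField L))
  have hdvr : ∀ P : Ideal (L ⊗[K] A), P ≠ ⊥ → ∀ _ : P.IsPrime,
      IsDiscreteValuationRing (Localization.AtPrime P) := by
    intro P hP hPp
    have := hmax P hP hPp
    have := DL.finite_quotient P hP
    have : Algebra.IsIntegral L ((L ⊗[K] A) ⧸ P) := Algebra.IsIntegral.of_finite L _
    let := Ideal.Quotient.field P
    let ε : L ≃ₐ[L] ((L ⊗[K] A) ⧸ P) := AlgEquiv.ofBijective (Algebra.ofId L _)
      IsAlgClosed.algebraMap_bijective_of_isIntegral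
    let ψ : L ⊗[K] A →ₐ[L] L :=
      (ε.symm : ((L ⊗[K] A) ⧸ P) →ₐ[L] L).comp (Ideal.Quotient.mkₐ L P)
    have hψ : ∀ x, ψ x = 0 ↔ x ∈ P := fun x => by
      simp [ψ, Ideal.Quotient.eq_zero_iff_mem]
    let φ : A →ₐ[K] L := (ψ.restrictScalars K).comp Algebra.TensorProduct.includeRight
    have hkey : ∀ x, x - algebraMap L _ (ψ x) ∈
        Submodule.span L (Set.range fun f : A => (1 : L) ⊗ₜ[K] f - algebraMap L _ (φ f)) := by
      intro x
      induction x using TensorProduct.induction_on with
      | zero => simp
      | add a b ha hb =>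
        rw [map_add ψ, map_add (algebraMap L _), add_sub_add_comm]
        exact add_mem ha hb
      | tmul c f =>
        have hf : (1 : L) ⊗ₜ[K] f - algebraMap L (L ⊗[K] A) (φ f) ∈
            Set.range (fun f : A => (1 : L) ⊗ₜ[K] f - algebraMap L (L ⊗[K] A) (φ f)) := ⟨f, rfl⟩
        have h := Submodule.smul_mem _ c (Submodule.subset_span (R := L) hf)
        convert h using 1
        have e : (c : L) ⊗ₜ[K] f = c • ((1 : L) ⊗ₜ[K] f) := by simp [TensorProduct.smul_tmul']
        rw [e, map_smul, smul_sub, smul_eq_mul, map_mul, Algebra.smul_def c (algebraMap L _ _)]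
        rfl
    -- a differential generating near `φ`
    obtain ⟨u, ⟨w, hw⟩, hu⟩ : ∃ u : A, (∃ w : A, ∀ x : A, u • KaehlerDifferential.D K A x ∈
        Submodule.span A {KaehlerDifferential.D K A w}) ∧ φ u ≠ 0 := by
      by_contra hall
      push Not at hall
      have h : Ideal.span {u : A | ∃ w : A, ∀ x : A, u • KaehlerDifferential.D K A x ∈
          Submodule.span A {KaehlerDifferential.D K A w}} ≤ RingHom.ker φ :=
        Ideal.span_le.mpr fun u hu => RingHom.mem_ker.mpr (hall u hu)
      rw [span_locally_monogenic_kaehler D] at h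
      simpa using h (Submodule.mem_top (x := (1 : A)))
    set ω : L ⊗[K] A := (1 : L) ⊗ₜ[K] w - algebraMap L _ (φ w)
    have hψ1 : ∀ f : A, (1 : L) ⊗ₜ[K] f - algebraMap L _ (φ f) ∈ P := fun f => (hψ _).mp (by
      rw [map_sub, AlgHom.commutes]; exact sub_self _)
    have hωP : ω ∈ P := hψ1 w
    have hgen : P ≤ Ideal.span {ω} ⊔ P ^ 2 := by
      intro x hx
      by_contra hxJ
      set J := (Ideal.span {ω} ⊔ P ^ 2).restrictScalars L
      obtain ⟨lam, hlam, hlamJ⟩ := Submodule.exists_dual_map_eq_bot_of_notMem
        (p := J) (x := x) hxJ inferInstance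
      have hJ0 : ∀ y ∈ J, lam y = 0 := fun y hy =>
        (Submodule.eq_bot_iff _).mp hlamJ _ (Submodule.mem_map_of_mem hy)
      let := φ.toAlgebra
      have : IsScalarTower K A L := IsScalarTower.of_algHom φ
      let dlin : A →ₗ[K] L :=
        (lam.restrictScalars K).comp
          ((Algebra.TensorProduct.includeRight : A →ₐ[K] L ⊗[K] A).toLinearMap -
            ((Algebra.linearMap L (L ⊗[K] A)).restrictScalars K).comp φ.toLinearMap)
      have hd : ∀ a, dlin a = lam ((1 : L) ⊗ₜ[K] a - algebraMap L _ (φ a)) := fun a => rfl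
      let d : Derivation K A L :=
        Derivation.mk' dlin fun a b => by
          rw [Algebra.smul_def, Algebra.smul_def]
          show dlin (a * b) = φ a * dlin b + φ b * dlin a
          set α := (1 : L) ⊗ₜ[K] a - algebraMap L (L ⊗[K] A) (φ a)
          set β := (1 : L) ⊗ₜ[K] b - algebraMap L (L ⊗[K] A) (φ b)
          have hαβ : lam (α * β) = 0 := hJ0 _ (Ideal.mem_sup_right (pow_two P ▸
            Ideal.mul_mem_mul (hψ1 a) (hψ1 b)))
          have e : (1 : L) ⊗ₜ[K] (a * b) - algebraMap L (L ⊗[K] A) (φ (a * b)) =
              φ a • β + φ b • α + α * β := by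
            rw [show (1 : L) ⊗ₜ[K] (a * b) = ((1 : L) ⊗ₜ[K] a) * ((1 : L) ⊗ₜ[K] b) by simp,
              map_mul, map_mul, Algebra.smul_def, Algebra.smul_def]
            simp only [α, β]
            ring
          rw [hd, hd, hd, e, map_add, map_add, map_smul, map_smul, hαβ, add_zero, smul_eq_mul,
            smul_eq_mul]
      have hd0 : ∀ y : A, d y = 0 := by
        intro y
        obtain ⟨c, hc⟩ := Submodule.mem_span_singleton.mp (hw y)
        have h := congrArg d.liftKaehlerDifferential hc
        simp only [map_smul, Derivation.liftKaehlerDifferential_comp_D] at h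
        have hdw : d w = 0 := hJ0 _ (Ideal.mem_sup_left (Ideal.mem_span_singleton_self ω))
        rw [hdw, smul_zero, Algebra.smul_def] at h
        exact (mul_eq_zero.mp h.symm).resolve_left hu
      refine hlam ?_
      have hx' := hkey x
      rw [(hψ x).mpr hx, map_zero, sub_zero] at hx'
      refine (Submodule.span_le.mpr ?_ : _ ≤ LinearMap.ker lam) hx'
      rintro _ ⟨y, rfl⟩
      exact hd0 y
    -- the maximal ideal of the localisation is principal
    set R' := Localization.AtPrime P
    have : IsNoetherianRing R' := IsLocalization.isNoetherianRing P.primeCompl _ inferInstance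
    have : IsDomain R' :=
      IsLocalization.isDomain_localization (P.primeCompl_le_nonZeroDivisors)
    have hm : IsLocalRing.maximalIdeal R' = Ideal.span {algebraMap _ R' ω} := by
      have e := Localization.AtPrime.map_eq_maximalIdeal (I := P)
      refine le_antisymm ?_ ((Ideal.span_singleton_le_iff_mem _).mpr
        (e ▸ Ideal.mem_map_of_mem _ hωP))
      refine Submodule.le_of_le_smul_of_le_jacobson_bot (IsNoetherian.noetherian _)
        (IsLocalRing.maximalIdeal_le_jacobson _) ?_
      conv_lhs => rw [← e]
      refine (Ideal.map_mono hgen).trans ?_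
      rw [Ideal.map_sup, Ideal.map_span, Set.image_singleton, Ideal.map_pow, e, pow_two,
        smul_eq_mul]
    have : IsPrincipalIdealRing R' := by
      have hfield : ¬IsField R' := fun h => hP <| by
        have h0 := IsLocalRing.isField_iff_maximalIdeal_eq.mp h
        rw [← Localization.AtPrime.map_eq_maximalIdeal (I := P), Ideal.map_eq_bot_iff_of_injective
          (IsLocalization.injective _ P.primeCompl_le_nonZeroDivisors)] at h0
        exact h0
      exact (((IsDiscreteValuationRing.TFAE R' hfield).out 0 4
        (a := IsDiscreteValuationRing R') (b := (IsLocalRing.maximalIdeal R').IsPrincipal)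
        rfl rfl).mpr ⟨⟨_, hm⟩⟩).toIsPrincipalIdealRing
    refine { not_a_field' := fun h => hP ?_ }
    rw [← Localization.AtPrime.map_eq_maximalIdeal (I := P), Ideal.map_eq_bot_iff_of_injective
      (IsLocalization.injective _ P.primeCompl_le_nonZeroDivisors)] at h
    exact h
  have : IsDedekindDomainDvr (L ⊗[K] A) :=
    { is_dvr_at_nonzero_prime := hdvr }
  infer_instance

end Fermat.Agent.MW
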