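import Fermat.Agent.MW.Core.Points
import Mathlib.Algebra.Module.Submodule.Union
import Mathlib.RingTheory.Flat.Basic

/-!
# Divisor classes, sections through a divisor, representatives

Classes of divisors supported away from a chosen finite set, the Riemann–Roch count for sections
through a divisor in large degree, and the behaviour of classes under extension of the scalars.
-/

set_option autoImplicit false

noncomputable section

open scoped TensorProduct nonZeroDivisors
open Module

namespace Fermat.Agent.MW

variable {K A : Type} [Field K] [CommRing A] [Algebra K A] (D : CurveBasis K A)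

/-- The class of the empty divisor is `0`. -/
theorem cl_zero [IsDedekindDomain A] : cl (0 : Multiset (Pt K A)) = 0 := by simp [cl]

/-- The class of a sum of divisors is the sum of the classes. -/
theorem cl_add [IsDedekindDomain A] (E E' : Multiset (Pt K A)) :
    cl (E + E') = cl E + cl E' := by simp [cl]

/-- A multiple of the point at infinity has class `0`. -/
theorem cl_replicate_none [IsDedekindDomain A] (j : ℕ) :
    cl (Multiset.replicate j (none : Pt K A)) = 0 := by simp [cl, pcl, Multiset.map_replicate]

variable [IsAlgClosed K] [IsDedekindDomain A]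

namespace CurveBasis

include D in
omit [IsAlgClosed K] in
theorem divIdeal_mem_nonZeroDivisors (F : Multiset (A →ₐ[K] K)) :
    divIdeal F ∈ (Ideal A)⁰ :=
  mem_nonZeroDivisors_of_ne_zero (D.divIdeal_ne_bot F)

include D in
omit [IsAlgClosed K] in
/-- The class of a divisor is the ideal class of its finite part. -/
theorem cl_eq (E : Multiset (Pt K A)) :
    cl E = Additive.ofMul
      (ClassGroup.mk0 ⟨divIdeal (finPart E), D.divIdeal_mem_nonZeroDivisors _⟩) := by
  induction E using Multiset.induction_on with
  | empty =>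
    rw [cl_zero]
    apply Additive.toMul.injective
    simp only [toMul_zero, toMul_ofMul]
    exact (map_one ClassGroup.mk0).symm.trans
      (congrArg ClassGroup.mk0 (Subtype.ext (by simp [finPart])))
  | cons P E ih =>
    rw [show cl (P ::ₘ E) = pcl P + cl E by simp [cl], ih]
    rcases P with _ | φ
    · simp only [pcl, zero_add]
      refine congrArg Additive.ofMul (congrArg ClassGroup.mk0 (Subtype.ext ?_))
      simp [finPart]
    · rw [pcl, dif_pos (mem_nonZeroDivisors_of_ne_zero (D.ptIdeal_ne_bot φ)), ← ofMul_mul,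
        ← map_mul]
      refine congrArg Additive.ofMul (congrArg ClassGroup.mk0 (Subtype.ext ?_))
      simp [finPart, divIdeal_cons]

include D in
omit [IsAlgClosed K] in
/-- A class vanishes exactly when the ideal of the finite part is principal. -/
theorem cl_eq_zero_iff (E : Multiset (Pt K A)) :
    cl E = 0 ↔ (divIdeal (finPart E)).IsPrincipal := by
  rw [D.cl_eq, ← ClassGroup.mk0_eq_one_iff (D.divIdeal_mem_nonZeroDivisors _)]
  exact ⟨fun h => congrArg Additive.toMul h, fun h => congrArg Additive.ofMul h⟩

/-- The class of the zeros of a section is trivial. -/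
theorem cl_zeros {n : ℕ} {t : A} (ht : t ≠ 0) : cl (D.zeros n t) = 0 := by
  rw [D.cl_eq_zero_iff, D.finPart_zeros, D.divIdeal_zerosFin ht]
  exact ⟨⟨t, rfl⟩⟩

/-- A divisor of class `0` is the divisor of zeros of a section. -/
theorem exists_zeros_eq (E : Multiset (Pt K A)) (h : cl E = 0) :
    ∃ t : A, t ≠ 0 ∧ t ∈ D.lev (Multiset.card E) ∧ D.zeros (Multiset.card E) t = E := by
  classical
  obtain ⟨t, ht⟩ := ((D.cl_eq_zero_iff E).mp h).principal
  have ht0 : t ≠ 0 := fun h0 => D.divIdeal_ne_bot (finPart E) (by simpa [h0] using ht)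
  have hz : zerosFin (K := K) t = finPart E := D.zerosFin_eq_of_divIdeal ht0 ht
  have hdeg : D.deg t = Multiset.card (finPart E) := by rw [← hz, D.card_zerosFin ht0]
  have hcard := card_eq_finPart_add E
  refine ⟨t, ht0, D.mem_lev_iff_deg_le.mpr (by omega), ?_⟩
  conv_rhs => rw [eq_finPart_add E]
  rw [CurveBasis.zeros, hz]
  congr 2
  omega

include D in
/-- Every ideal class is the class of a divisor. -/
theorem exists_cl_eq (x : Additive (ClassGroup A)) : ∃ E : Multiset (Pt K A), cl E = x := by
  obtain ⟨⟨I, hI⟩, hx⟩ := ClassGroup.mk0_surjective x.toMul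
  obtain ⟨F, hF⟩ := D.exists_divIdeal_eq I (nonZeroDivisors.ne_zero hI)
  refine ⟨F.map some, ?_⟩
  rw [D.cl_eq]
  refine (congrArg Additive.ofMul ?_).trans (ofMul_toMul x)
  rw [← hx]
  exact congrArg ClassGroup.mk0 (Subtype.ext (by simp [hF]))

/-- The functions in an ideal of a divisor with bounded pole order. -/
def idealLev (F : Multiset (A →ₐ[K] K)) (m : ℕ) : Submodule K A :=
  (divIdeal F).restrictScalars K ⊓ D.lev m

instance (F : Multiset (A →ₐ[K] K)) (m : ℕ) : FiniteDimensional K (D.idealLev F m) :=
  Submodule.finiteDimensional_of_le inf_le_right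

/-- Reduction of functions of bounded pole order modulo a divisor. -/
def levToQuot (F : Multiset (A →ₐ[K] K)) (m : ℕ) : D.lev m →ₗ[K] A ⧸ divIdeal F :=
  (Ideal.Quotient.mkₐ K _).toLinearMap.comp (Submodule.subtype _)

omit [IsAlgClosed K] [IsDedekindDomain A] in
theorem finrank_ker_levToQuot (F : Multiset (A →ₐ[K] K)) (m : ℕ) :
    finrank K (LinearMap.ker (D.levToQuot F m)) = finrank K (D.idealLev F m) := by
  have : LinearMap.ker (D.levToQuot F m) =
      (D.idealLev F m).comap (D.lev m).subtype := by
    ext x
    simp [levToQuot, idealLev, Ideal.Quotient.eq_zero_iff_mem]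
  rw [this]
  exact (Submodule.comapSubtypeEquivOfLe inf_le_right).finrank_eq

omit [IsAlgClosed K] in
theorem finrank_lev_le_idealLev_add (F : Multiset (A →ₐ[K] K)) (m : ℕ) :
    finrank K (D.lev m) ≤ finrank K (D.idealLev F m) + Multiset.card F := by
  have := D.finite_quotient _ (D.divIdeal_ne_bot F)
  rw [← D.finrank_ker_levToQuot, ← D.finrank_quotient_divIdeal F,
    ← LinearMap.finrank_range_add_finrank_ker (D.levToQuot F m), add_comm]
  exact Nat.add_le_add_left (Submodule.finrank_le _) _

open scoped Classical in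
omit [IsAlgClosed K] in
/-- The ideal of a divisor contains functions of every large pole order. -/
theorem exists_coeff_ne_zero (F : Multiset (A →ₐ[K] K)) {m : ℕ}
    (hm : Multiset.card F + 2 * D.genus ≤ m) :
    ∃ h ∈ D.idealLev F m, D.coeff m h ≠ 0 := by
  by_contra hcon
  push Not at hcon
  let T := (Finset.range (m + 1)).filter fun k => ∃ h ∈ D.idealLev F m, D.deg h = k ∧ h ≠ 0
  let ev : D.idealLev F m →ₗ[K] (T → K) :=
    LinearMap.pi fun k => (D.coeff (k : ℕ)).comp (Submodule.subtype _)
  have hev : Function.Injective ev := by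
    rw [← LinearMap.ker_eq_bot, LinearMap.ker_eq_bot']
    intro x hx
    by_contra hx0
    have hx0' : (x : A) ≠ 0 := fun h => hx0 (Subtype.ext h)
    have hk : D.deg (x : A) ∈ T := Finset.mem_filter.mpr ⟨Finset.mem_range.mpr
      (Nat.lt_succ_of_le (D.deg_le_of_mem_lev x.2.2)), x, x.2, rfl, hx0'⟩
    exact D.coeff_deg_ne_zero hx0' (congrFun hx ⟨_, hk⟩)
  have hT : finrank K (D.idealLev F m) ≤ T.card := by
    simpa using LinearMap.finrank_le_finrank_of_injective hev
  let N := (Finset.range (m + 1)).filter fun i => i ∉ D.gaps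
  let Z := (Finset.range (m + 1)).filter fun k => k ∉ T
  have hNZ : N.card ≤ Z.card := by
    refine Finset.card_le_card_of_injOn (fun i => m - i) (fun i hi => ?_) fun i hi j hj h => ?_
    · simp only [N, Finset.coe_filter, Finset.mem_range, Set.mem_ofPred_eq] at hi
      refine Finset.mem_coe.mpr (Finset.mem_filter.mpr
        ⟨Finset.mem_range.mpr (show m - i < m + 1 by omega), fun hT' => ?_⟩)
      obtain ⟨-, h, hh, hdeg, h0⟩ := Finset.mem_filter.mp hT'
      have hlev : h ∈ D.lev (m - i) := D.mem_lev_iff_deg_le.mpr hdeg.le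
      have hmem : h * D.e i ∈ D.idealLev F m := by
        refine ⟨Ideal.mul_mem_right _ _ hh.1, ?_⟩
        simpa [Nat.sub_add_cancel (show i ≤ m by omega)] using
          D.mul_mem_lev hlev (D.e_mem_lev (le_refl i))
      have hc := D.coeff_mul hlev (D.e_mem_lev (le_refl i))
      rw [Nat.sub_add_cancel (show i ≤ m by omega), hcon _ hmem, D.coeff_e hi.2, if_pos rfl,
        mul_one] at hc
      exact D.coeff_deg_ne_zero h0 (by rw [show D.deg h = m - i from hdeg]; exact hc.symm)
    · simp only [N, Finset.coe_filter, Finset.mem_range, Set.mem_ofPred_eq] at hi hj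
      simp only at h
      have := hi.1
      have := hj.1
      omega
  have h1 := Finset.card_filter_add_card_filter_not (s := Finset.range (m + 1)) (· ∈ T)
  have h2 : ((Finset.range (m + 1)).filter (· ∈ T)).card = T.card := by
    rw [Finset.filter_mem_eq_inter, Finset.inter_eq_right.mpr (Finset.filter_subset _ _)]
  have h3 : finrank K (D.lev m) = N.card := D.finrank_lev_eq_card m
  have h4 := D.finrank_lev (show 2 * D.genus ≤ m + 1 by omega)
  have h5 := D.finrank_lev_le_idealLev_add F m
  rw [Finset.card_range, h2] at h1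
  change T.card + Z.card = m + 1 at h1
  omega

omit [IsAlgClosed K] in
theorem levToQuot_surjective (F : Multiset (A →ₐ[K] K)) {m : ℕ}
    (hm : Multiset.card F + 2 * D.genus ≤ m + 1) : Function.Surjective (D.levToQuot F m) := by
  suffices ∀ M, ∀ x ∈ D.lev M, ∃ y ∈ D.lev m, x - y ∈ divIdeal F by
    intro q
    obtain ⟨x, rfl⟩ := Ideal.Quotient.mk_surjective q
    obtain ⟨y, hy, hxy⟩ := this _ x (D.mem_lev_deg x)
    exact ⟨⟨y, hy⟩, (Ideal.Quotient.eq.mpr hxy).symm⟩
  intro M
  induction M using Nat.strong_induction_on with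
  | _ M ih =>
    intro x hx
    by_cases hMm : M ≤ m
    · exact ⟨x, D.lev_mono hMm hx, by simp⟩
    obtain ⟨h, hh, hc⟩ := D.exists_coeff_ne_zero F (show Multiset.card F + 2 * D.genus ≤ M by omega)
    set c := D.coeff M x * (D.coeff M h)⁻¹
    have hz : x - c • h ∈ D.lev (M - 1) := by
      refine D.mem_lev_iff.mpr fun i hi => ?_
      rcases Nat.lt_or_ge M i with hlt | hge
      · simp [D.mem_lev_iff.mp hx i hlt, D.mem_lev_iff.mp hh.2 i hlt]
      · obtain rfl : i = M := by omega
        simp only [map_sub, map_smul, smul_eq_mul, c]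
        rw [mul_assoc, inv_mul_cancel₀ hc, mul_one, sub_self]
    obtain ⟨y, hy, hxy⟩ := ih (M - 1) (by omega) _ hz
    refine ⟨y, hy, ?_⟩
    rw [show x - y = c • h + (x - c • h - y) by abel]
    exact add_mem (Submodule.smul_of_tower_mem _ c hh.1) hxy

omit [IsAlgClosed K] in
theorem finrank_idealLev (F : Multiset (A →ₐ[K] K)) {m : ℕ}
    (hm : Multiset.card F + 2 * D.genus ≤ m + 1) :
    finrank K (D.idealLev F m) + Multiset.card F + D.genus = m + 1 := by
  have h1 := LinearMap.finrank_range_add_finrank_ker (D.levToQuot F m)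
  rw [LinearMap.range_eq_top.mpr (D.levToQuot_surjective F hm), finrank_top,
    D.finrank_quotient_divIdeal, D.finrank_ker_levToQuot, D.finrank_lev (by omega)] at h1
  omega

open scoped Classical in
/-- The sections of degree `n` through `E`. -/
def secVan (E : Multiset (Pt K A)) (n : ℕ) : Submodule K A :=
  if E.count none ≤ n then D.idealLev (finPart E) (n - E.count none) else ⊥

omit [IsAlgClosed K] [IsDedekindDomain A] in
theorem secVan_le_lev (E : Multiset (Pt K A)) (n : ℕ) : D.secVan E n ≤ D.lev n := by
  classical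
  rw [secVan]
  split_ifs
  · exact inf_le_right.trans (D.lev_mono (Nat.sub_le _ _))
  · exact bot_le

open scoped Classical in
theorem mem_secVan_iff {E : Multiset (Pt K A)} {n : ℕ} {t : A} (htn : t ∈ D.lev n) :
    t ∈ D.secVan E n ↔ t = 0 ∨ E ≤ D.zeros n t := by
  rcases eq_or_ne t 0 with rfl | ht
  · simp
  simp only [ht, false_or]
  rw [le_iff_finPart, D.finPart_zeros, D.count_none_zeros, ← D.mem_divIdeal_iff ht, secVan]
  have := D.deg_le_of_mem_lev htn
  split_ifs with hj
  · simp only [idealLev, Submodule.mem_inf, Submodule.restrictScalars_mem, D.mem_lev_iff_deg_le]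
    refine and_congr_right fun _ => ?_
    omega
  · simp only [Submodule.mem_bot, ht, false_iff, not_and]
    intro _
    omega

/-- The sections of degree `n` through `E` form a subspace of the expected dimension. -/
theorem exists_submodule_through (E : Multiset (Pt K A)) (n : ℕ) :
    ∃ V : Submodule K A, V ≤ D.lev n ∧
      (∀ t ∈ D.lev n, t ∈ V ↔ t = 0 ∨ E ≤ D.zeros n t) ∧
      finrank K (D.lev n) ≤ finrank K V + Multiset.card E ∧
      (Multiset.card E + 2 * D.genus ≤ n + 1 →
        finrank K V + Multiset.card E + D.genus = n + 1) := by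
  classical
  refine ⟨D.secVan E n, D.secVan_le_lev E n, fun t ht => D.mem_secVan_iff ht, ?_, ?_⟩
  · have hcard := card_eq_finPart_add E
    by_cases hj : E.count none ≤ n
    on_goal 1 => rw [show D.secVan E n = D.idealLev (finPart E) (n - E.count none) from if_pos hj]
    on_goal 2 => rw [show D.secVan E n = ⊥ from if_neg hj]
    · have h1 := D.finrank_lev_le_idealLev_add (finPart E) (n - E.count none)
      have h2 : finrank K (D.lev n) ≤ finrank K (D.lev (n - E.count none)) + E.count none := by
        rw [D.finrank_lev_eq_card, D.finrank_lev_eq_card]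
        have hsub : (Finset.range (n + 1)).filter (· ∉ D.gaps) ⊆
            (Finset.range (n - E.count none + 1)).filter (· ∉ D.gaps) ∪
              Finset.Ioc (n - E.count none) n := by
          intro i hi
          simp only [Finset.mem_filter, Finset.mem_range, Finset.mem_union, Finset.mem_Ioc] at hi ⊢
          by_cases h : i < n - E.count none + 1
          · exact Or.inl ⟨h, hi.2⟩
          · exact Or.inr ⟨by omega, by omega⟩
        refine (Finset.card_le_card hsub).trans ((Finset.card_union_le _ _).trans ?_)
        simp only [Nat.card_Ioc]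
        omega
      omega
    · rw [finrank_bot, D.finrank_lev_eq_card]
      refine (Finset.card_filter_le _ _).trans ?_
      rw [Finset.card_range]
      omega
  · intro h
    have hcard := card_eq_finPart_add E
    by_cases hj : E.count none ≤ n
    on_goal 1 => rw [show D.secVan E n = D.idealLev (finPart E) (n - E.count none) from if_pos hj]
    on_goal 2 => rw [show D.secVan E n = ⊥ from if_neg hj]
    · have := D.finrank_idealLev (finPart E) (show _ ≤ n - E.count none + 1 by omega)
      omega
    · rw [finrank_bot]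
      omega

/-- Sections through a divisor, otherwise avoiding a finite set. -/
theorem exists_section_avoid (E : Multiset (Pt K A)) {n : ℕ}
    (hn : Multiset.card E + 2 * D.genus ≤ n) (S : Finset (Pt K A)) :
    ∃ t ∈ D.lev n, t ≠ 0 ∧ ∃ E' : Multiset (Pt K A),
      D.zeros n t = E + E' ∧ ∀ P ∈ E', P ∉ S := by
  classical
  obtain ⟨V, hVn, hV, -, hVdim⟩ := D.exists_submodule_through E n
  have hdimV := hVdim (by omega)
  have : FiniteDimensional K V := Submodule.finiteDimensional_of_le hVn
  have key : ∀ P : Pt K A, ∃ W : Submodule K A, W ≤ D.lev n ∧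
      (∀ t ∈ D.lev n, t ∈ W ↔ t = 0 ∨ P ::ₘ E ≤ D.zeros n t) ∧
      W.comap V.subtype ≠ ⊤ := by
    intro P
    obtain ⟨W, hWn, hW, -, hWdim⟩ := D.exists_submodule_through (P ::ₘ E) n
    refine ⟨W, hWn, hW, fun htop => ?_⟩
    have hle : V ≤ W := fun x hx => by
      have : (⟨x, hx⟩ : V) ∈ W.comap V.subtype := htop ▸ Submodule.mem_top
      exact this
    have : FiniteDimensional K W := Submodule.finiteDimensional_of_le hWn
    have := Submodule.finrank_mono hle
    have := hWdim (by simp; omega)
    simp at this
    omega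
  choose W hWn hW hWtop using key
  obtain ⟨t, ht⟩ := Submodule.exists_forall_notMem_of_forall_ne_top
    (fun P : Option {P // P ∈ S} =>
      P.elim (⊥ : Submodule K V) fun P => (W P.1).comap V.subtype) (by
    rintro (_ | P)
    · intro h
      simp only [Option.elim_none] at h
      have h2 : finrank K (⊥ : Submodule K V) = finrank K (⊤ : Submodule K V) := by rw [h]
      rw [finrank_bot, finrank_top] at h2
      omega
    · exact hWtop P.1)
  have ht0 : (t : A) ≠ 0 := fun h => ht none (by simpa using Subtype.ext h)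
  have hzero : E ≤ D.zeros n t := ((hV _ (hVn t.2)).mp t.2).resolve_left ht0
  obtain ⟨E', hE'⟩ := Multiset.le_iff_exists_add.mp hzero
  refine ⟨t, hVn t.2, ht0, E', hE', fun P hP hPS => ht (some ⟨P, hPS⟩) ?_⟩
  refine (hW P _ (hVn t.2)).mpr (Or.inr ?_)
  rw [hE', ← Multiset.singleton_add, add_comm]
  exact add_le_add le_rfl (Multiset.singleton_le.mpr hP)

include D in
/-- Every class is the class of an effective divisor. -/
theorem exists_rep (x : Additive (ClassGroup A)) :
    ∃ E : Multiset (Pt K A), Multiset.card E ≤ D.genus ∧ cl E = x := by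
  classical
  obtain ⟨E₀, hE₀⟩ := D.exists_cl_eq (-x)
  obtain ⟨V, hVn, hV, hle, -⟩ := D.exists_submodule_through E₀ (Multiset.card E₀ + D.genus)
  have h1 := D.le_finrank_lev (Multiset.card E₀ + D.genus)
  have hpos : V ≠ ⊥ := fun h => by rw [h, finrank_bot] at hle; omega
  obtain ⟨t, htV, ht0⟩ := Submodule.exists_mem_ne_zero_of_ne_bot hpos
  obtain ⟨E', hE'⟩ := Multiset.le_iff_exists_add.mp (((hV t (hVn htV)).mp htV).resolve_left ht0)
  refine ⟨E', ?_, ?_⟩
  · have := D.card_zeros ht0 (hVn htV)
    rw [hE', Multiset.card_add] at this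
    omega
  · have h := D.cl_zeros (n := Multiset.card E₀ + D.genus) ht0
    rw [hE', cl_add, hE₀, neg_add_eq_zero] at h
    exact h.symm

include D in
/-- Every class has a representative of any prescribed degree `d ≥ genus`. -/
theorem exists_rep_card_eq (x : Additive (ClassGroup A)) {d : ℕ} (hd : D.genus ≤ d) :
    ∃ E : Multiset (Pt K A), Multiset.card E = d ∧ cl E = x := by
  obtain ⟨E, hE, hcl⟩ := D.exists_rep x
  refine ⟨E + Multiset.replicate (d - Multiset.card E) none, ?_, ?_⟩
  · simp; omega
  · rw [cl_add, cl_replicate_none, add_zero, hcl]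

include D in
/-- A class has representatives of large degree avoiding any finite set. -/
theorem exists_rep_avoid (x : Additive (ClassGroup A)) {d : ℕ} (hd : 2 * D.genus ≤ d)
    (S : Finset (Pt K A)) :
    ∃ E : Multiset (Pt K A), Multiset.card E = d ∧ cl E = x ∧ ∀ P ∈ E, P ∉ S := by
  obtain ⟨E₀, hcard, hE₀⟩ := D.exists_rep_card_eq (-x) (le_refl D.genus)
  obtain ⟨t, ht, ht0, E', hz, hav⟩ :=
    D.exists_section_avoid E₀ (n := Multiset.card E₀ + d) (by omega) S
  refine ⟨E', ?_, ?_, hav⟩
  · have := D.card_zeros ht0 ht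
    rw [hz, Multiset.card_add] at this
    omega
  · have h := D.cl_zeros (n := Multiset.card E₀ + d) ht0
    rw [hz, cl_add, hE₀, neg_add_eq_zero] at h
    exact h.symm

omit [IsAlgClosed K] [IsDedekindDomain A] in
/-- The coordinate vector of a point is nonzero. -/
theorem coord_ne_zero (P : Pt K A) : D.coord P ≠ 0 := by
  intro h
  rcases P with _ | φ
  · have := congrFun h ⟨D.embDeg, Nat.lt_succ_self _⟩
    have hn : D.embDeg ∉ D.gaps := D.notMem_gaps_of_le (by unfold CurveBasis.embDeg; omega)
    simp [CurveBasis.coord, CurveBasis.evSec, D.coeff_e hn] at this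
  · have := congrFun h 0
    simp [CurveBasis.coord, CurveBasis.evSec, D.e_zero] at this

omit [IsAlgClosed K] [IsDedekindDomain A] in
/-- The projective embedding is injective. -/
theorem eq_of_wedge_coord_eq_zero (P Q : Pt K A)
    (h : ∀ i j, D.coord P i * D.coord Q j - D.coord P j * D.coord Q i = 0) : P = Q := by
  have hn : D.embDeg ∉ D.gaps := D.notMem_gaps_of_le (by unfold CurveBasis.embDeg; omega)
  have h0 : D.coeff D.embDeg (1 : A) = 0 := by
    rw [← D.e_zero, D.coeff_e D.zero_notMem, if_neg (by unfold CurveBasis.embDeg; omega)]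
  rcases P with _ | φ <;> rcases Q with _ | ψ
  · rfl
  · have := h 0 ⟨D.embDeg, Nat.lt_succ_self _⟩
    simp [CurveBasis.coord, CurveBasis.evSec, D.coeff_e hn, h0, D.e_zero] at this
  · have := h 0 ⟨D.embDeg, Nat.lt_succ_self _⟩
    simp [CurveBasis.coord, CurveBasis.evSec, D.coeff_e hn, h0, D.e_zero] at this
  · refine congrArg some (AlgHom.ext_of_adjoin_eq_top D.adjoin_e_eq_top ?_)
    rintro _ ⟨i, hi, rfl⟩
    have hi' : i < D.embDeg + 1 := by
      have := Set.mem_Iic.mp hi
      unfold CurveBasis.embDeg
      omega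
    have := h ⟨i, hi'⟩ 0
    simpa [CurveBasis.coord, CurveBasis.evSec, D.e_zero, sub_eq_zero] using this

variable (L : Type) [Field L] [Algebra K L] [IsAlgClosed L] [IsDedekindDomain (L ⊗[K] A)]

/-- The points of a divisor over an extension field. -/
def mapFin (F : Multiset (A →ₐ[K] K)) : Multiset (L ⊗[K] A →ₐ[L] L) :=
  F.map fun φ => Algebra.TensorProduct.lift (AlgHom.id L L) ((Algebra.ofId K L).comp φ)
    (fun _ _ => Commute.all _ _)

omit [IsAlgClosed K] [IsDedekindDomain A] [IsAlgClosed L] [IsDedekindDomain (L ⊗[K] A)] in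
theorem map_divIdeal_le (F : Multiset (A →ₐ[K] K)) :
    (divIdeal F).map (Algebra.TensorProduct.includeRight : A →ₐ[K] L ⊗[K] A) ≤
      divIdeal (CurveBasis.mapFin L F) := by
  induction F using Multiset.induction_on with
  | empty => simp [mapFin]
  | cons φ F ih =>
    rw [divIdeal_cons, Ideal.map_mul, mapFin, Multiset.map_cons, divIdeal_cons]
    refine Ideal.mul_mono (Ideal.map_le_iff_le_comap.mpr fun f hf => ?_) ih
    simp only [ptIdeal, RingHom.mem_ker] at hf
    simp [ptIdeal, RingHom.mem_ker, hf]

/-- Divisors of zeros commute with extension of scalars. -/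
theorem zeros_baseChange {n : ℕ} {t : A} (ht : t ≠ 0) :
    (D.baseChange L).zeros n (1 ⊗ₜ t) = (D.zeros n t).map (mapPt L) := by
  have hne : (1 : L) ⊗ₜ[K] t ≠ 0 := fun h => by
    have := D.baseChange_coeff L (D.deg t) 1 t
    rw [h, map_zero, one_mul] at this
    exact D.coeff_deg_ne_zero ht ((map_eq_zero _).mp this.symm)
  have hz : zerosFin (K := L) ((1 : L) ⊗ₜ[K] t) = CurveBasis.mapFin L (zerosFin t) := by
    refine (Multiset.eq_of_le_of_card_le ?_ ?_).symm
    · rw [← (D.baseChange L).mem_divIdeal_iff hne]
      refine CurveBasis.map_divIdeal_le L _ (Ideal.mem_map_of_mem _ ?_)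
      rw [D.divIdeal_zerosFin ht]
      exact Ideal.mem_span_singleton_self t
    · rw [(D.baseChange L).card_zerosFin hne, D.baseChange_deg, mapFin, Multiset.card_map,
        D.card_zerosFin ht]
  simp only [CurveBasis.zeros, Multiset.map_add, Multiset.map_map, hz, mapFin, D.baseChange_deg,
    Multiset.map_replicate]
  rfl

omit [IsAlgClosed K] [IsDedekindDomain A] [IsAlgClosed L] [IsDedekindDomain (L ⊗[K] A)] in
theorem finPart_map_mapPt (E : Multiset (Pt K A)) :
    finPart (E.map (mapPt L)) = CurveBasis.mapFin L (finPart E) := by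
  induction E using Multiset.induction_on with
  | empty => simp [finPart, mapFin]
  | cons P E ih =>
    rcases P with _ | φ <;> simp_all [finPart, mapPt, mapFin]

omit [IsAlgClosed K] [IsDedekindDomain A] [IsAlgClosed L] [IsDedekindDomain (L ⊗[K] A)] in
theorem ker_mapFin_le (φ : A →ₐ[K] K) (x : L ⊗[K] A) :
    x ∈ ptIdeal (Algebra.TensorProduct.lift (AlgHom.id L L) ((Algebra.ofId K L).comp φ)
      (fun _ _ => Commute.all _ _)) →
    x ∈ (ptIdeal φ).map (Algebra.TensorProduct.includeRight : A →ₐ[K] L ⊗[K] A) := by
  intro hx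
  set ψ : L ⊗[K] A →ₐ[L] L := Algebra.TensorProduct.lift (AlgHom.id L L)
    ((Algebra.ofId K L).comp φ) (fun _ _ => Commute.all _ _)
  have key : ∀ y : L ⊗[K] A, y - algebraMap L _ (ψ y) ∈
      (ptIdeal φ).map (Algebra.TensorProduct.includeRight : A →ₐ[K] L ⊗[K] A) := by
    intro y
    induction y using TensorProduct.induction_on with
    | zero => simp
    | add a b ha hb => simpa [map_add, add_sub_add_comm] using add_mem ha hb
    | tmul c f =>
      have h := Ideal.mem_map_of_mem
        (Algebra.TensorProduct.includeRight : A →ₐ[K] L ⊗[K] A) (sub_algebraMap_mem_ptIdeal φ f)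
      have h2 := Ideal.mul_mem_left _ ((c : L) ⊗ₜ[K] (1 : A)) h
      convert h2 using 1
      rw [Algebra.TensorProduct.includeRight_apply, TensorProduct.tmul_sub, mul_sub,
        Algebra.TensorProduct.tmul_mul_tmul, Algebra.TensorProduct.tmul_mul_tmul,
        Algebra.TensorProduct.algebraMap_apply, mul_one, one_mul, one_mul,
        Algebra.algebraMap_eq_smul_one (R := K) (A := A), TensorProduct.tmul_smul,
        TensorProduct.smul_tmul']
      simp [ψ, Algebra.smul_def, mul_comm]
  simpa [ptIdeal, RingHom.mem_ker.mp hx] using key x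

include D in
omit D [IsAlgClosed K] [IsDedekindDomain A] [IsAlgClosed L] [IsDedekindDomain (L ⊗[K] A)] in
theorem divIdeal_mapFin (F : Multiset (A →ₐ[K] K)) :
    divIdeal (CurveBasis.mapFin L F) =
      (divIdeal F).map (Algebra.TensorProduct.includeRight : A →ₐ[K] L ⊗[K] A) := by
  refine le_antisymm ?_ (CurveBasis.map_divIdeal_le L F)
  induction F using Multiset.induction_on with
  | empty => simp [mapFin, Ideal.map_top]
  | cons φ F ih =>
    rw [divIdeal_cons, Ideal.map_mul, mapFin, Multiset.map_cons, divIdeal_cons]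
    exact Ideal.mul_mono (CurveBasis.ker_mapFin_le L φ) ih

include D in
/-- Extension of the scalars is injective on classes. -/
theorem cl_mapPt_eq_iff (E E' : Multiset (Pt K A)) :
    cl (E.map (mapPt L)) = cl (E'.map (mapPt L)) ↔ cl E = cl E' := by
  classical
  have fwd : ∀ F : Multiset (Pt K A), cl F = 0 → cl (F.map (mapPt L)) = 0 := by
    intro F hF
    obtain ⟨t, ht, -, hz⟩ := D.exists_zeros_eq F hF
    have hne : (1 : L) ⊗ₜ[K] t ≠ 0 := fun h => by
      have := D.baseChange_coeff L (D.deg t) 1 t
      rw [h, map_zero, one_mul] at this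
      exact D.coeff_deg_ne_zero ht ((map_eq_zero _).mp this.symm)
    rw [← hz, ← D.zeros_baseChange L ht]
    exact (D.baseChange L).cl_zeros hne
  have bwd : ∀ F : Multiset (Pt K A), cl (F.map (mapPt L)) = 0 → cl F = 0 := by
    intro F hF
    obtain ⟨u, hu0, hun, hu⟩ := (D.baseChange L).exists_zeros_eq _ hF
    rw [Multiset.card_map] at hun hu
    set n := Multiset.card F
    by_contra hF0
    set j := F.count none
    have hj : (F.map (mapPt L)).count none = j := by
      rw [show (none : Pt L (L ⊗[K] A)) = mapPt L none from rfl,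
        Multiset.count_map_eq_count']
      intro P Q hPQ
      rcases P with _ | φ <;> rcases Q with _ | ψ <;> simp [mapPt] at hPQ ⊢
      refine AlgHom.ext fun f => ?_
      have := DFunLike.congr_fun hPQ (1 ⊗ₜ f)
      simpa using this
    have hnj : j ≤ n := Multiset.count_le_card _ _
    have hcard := card_eq_finPart_add F
    -- over `K` no nonzero section of this degree passes through the divisor
    have hinj : Function.Injective (D.levToQuot (finPart F) (n - j)) := by
      rw [← LinearMap.ker_eq_bot, LinearMap.ker_eq_bot']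
      rintro ⟨t, ht⟩ hq
      refine Subtype.ext ?_
      by_contra ht0
      have ht0' : t ≠ 0 := ht0
      have hI : t ∈ divIdeal (finPart F) := Ideal.Quotient.eq_zero_iff_mem.mp hq
      have htn : t ∈ D.lev n := D.lev_mono (Nat.sub_le _ _) ht
      refine hF0 ?_
      have hle : F ≤ D.zeros n t := by
        rw [le_iff_finPart, D.finPart_zeros, D.count_none_zeros, ← D.mem_divIdeal_iff ht0']
        exact ⟨hI, by have := D.deg_le_of_mem_lev ht; omega⟩
      rw [Multiset.eq_of_le_of_card_le hle (le_of_eq (D.card_zeros ht0' htn))]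
      exact D.cl_zeros ht0'
    let π : A →ₗ[K] A ⧸ divIdeal (finPart F) := (Ideal.Quotient.mkₐ K _).toLinearMap
    have hmapzero : ∀ x : L ⊗[K] A,
        x ∈ divIdeal (CurveBasis.mapFin L (finPart F)) → LinearMap.lTensor L π x = 0 := by
      intro x hx
      rw [divIdeal_mapFin L] at hx
      set Φ := Algebra.TensorProduct.map (AlgHom.id K L)
        (Ideal.Quotient.mkₐ K (divIdeal (finPart F)))
      have hΦ : LinearMap.lTensor L π = Φ.toLinearMap :=
        TensorProduct.ext' fun c f => by simp [Φ, π]
      rw [hΦ, AlgHom.toLinearMap_apply]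
      refine RingHom.mem_ker.mp ((Ideal.map_le_iff_le_comap.mpr fun f hf => ?_) hx :
        x ∈ RingHom.ker Φ)
      simp [Φ, RingHom.mem_ker, Ideal.Quotient.eq_zero_iff_mem.mpr hf]
    have hucount := congrArg (Multiset.count none) hu
    rw [(D.baseChange L).count_none_zeros, hj] at hucount
    have hudeg : u ∈ (D.baseChange L).lev (n - j) := (D.baseChange L).mem_lev_iff_deg_le.mpr
      (by have := (D.baseChange L).deg_le_of_mem_lev hun; omega)
    have hufin : u ∈ divIdeal (CurveBasis.mapFin L (finPart F)) := by
      rw [(D.baseChange L).mem_divIdeal_iff hu0, ← (D.baseChange L).finPart_zeros n, hu,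
        CurveBasis.finPart_map_mapPt L]
    have himg : ∀ y ∈ (D.baseChange L).lev (n - j),
        y ∈ LinearMap.range (LinearMap.lTensor L (D.lev (n - j)).subtype) := by
      intro y hy
      induction hy using Submodule.span_induction with
      | mem y hy =>
        obtain ⟨i, hi, rfl⟩ := hy
        exact ⟨1 ⊗ₜ ⟨D.e i, D.e_mem_lev hi⟩, by simp [D.baseChange_e]⟩
      | zero => simp
      | add a b _ _ ha hb => exact add_mem ha hb
      | smul c a _ ha =>
        obtain ⟨w, rfl⟩ := ha
        refine ⟨c • w, ?_⟩
        clear * - c w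
        induction w using TensorProduct.induction_on with
        | zero => simp
        | add a b ha hb => simp [smul_add, ha, hb]
        | tmul d v => simp [TensorProduct.smul_tmul']
    obtain ⟨w, hw⟩ := himg u hudeg
    have hw0 : w = 0 := by
      refine Module.Flat.lTensor_preserves_injective_linearMap (M := L)
        (D.levToQuot (finPart F) (n - j)) hinj ?_
      rw [map_zero, show D.levToQuot (finPart F) (n - j) = π.comp (Submodule.subtype _) from rfl,
        LinearMap.lTensor_comp, LinearMap.comp_apply, hw]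
      exact hmapzero u hufin
    exact hu0 (by rw [← hw, hw0, map_zero])
  obtain ⟨R, -, hR⟩ := D.exists_rep (-cl E')
  constructor
  · intro h
    have h1 := fwd (E' + R) (by rw [cl_add, hR, add_neg_cancel])
    have h2 : cl (E + R) = 0 := bwd _ (by
      rw [Multiset.map_add, cl_add, h, ← cl_add, ← Multiset.map_add, h1])
    rw [cl_add, hR, ← sub_eq_add_neg, sub_eq_zero] at h2
    exact h2
  · intro h
    have h1 := fwd (E + R) (by rw [cl_add, hR, h, add_neg_cancel])
    have h2 := fwd (E' + R) (by rw [cl_add, hR, add_neg_cancel])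
    rw [Multiset.map_add, cl_add, ← h2, Multiset.map_add, cl_add] at h1
    exact add_right_cancel h1

end CurveBasis

end Fermat.Agent.MW
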