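import Fermat.Agent.MW.Core.Degree
import Fermat.Agent.MW.Core.Points
import Fermat.Agent.MW.Core.Classes
import Fermat.Agent.MW.Core.BaseChange

/-!
# Basic properties of sections, zeros and classes

Re-exports the core files on pole orders, points, classes and base change.
-/
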