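import Fermat.Agent.MW.Core.Defs2
import Fermat.Agent.MW.Core.Points

/-!
# The auxiliary projection of a curve with a basis

For `u = e projDeg` the least nongaps `apery r` in the residue classes modulo `projDeg` exist, and
`u - c` is a section of degree `projDeg` with leading coefficient one, hence without zeros at
infinity.
-/

set_option autoImplicit false

noncomputable section

open scoped Classical

namespace Fermat.Agent.MW.CurveBasis

variable {K A : Type} [Field K] [CommRing A] [Algebra K A] (D : CurveBasis K A)

/-- The degree of the projection is positive. -/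
theorem projDeg_pos : 0 < D.projDeg := Nat.succ_pos _

theorem two_genus_lt_projDeg : 2 * D.genus < D.projDeg := Nat.lt_succ_self _

/-- The degree of the projection is not a gap. -/
theorem projDeg_notMem : D.projDeg ∉ D.gaps := D.notMem_gaps_of_le D.two_genus_lt_projDeg.le

theorem apery_set_nonempty (r : Fin D.projDeg) :
    {n : ℕ | n ∉ D.gaps ∧ n % D.projDeg = r}.Nonempty :=
  ⟨(r : ℕ) + D.projDeg, D.notMem_gaps_of_le (by have := D.two_genus_lt_projDeg; omega),
    by rw [Nat.add_mod_right, Nat.mod_eq_of_lt r.2]⟩

/-- Apéry numbers are not gaps. -/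
theorem apery_notMem (r : Fin D.projDeg) : D.apery r ∉ D.gaps :=
  (Nat.sInf_mem (D.apery_set_nonempty r)).1

/-- An Apéry number lies in its residue class. -/
theorem apery_mod (r : Fin D.projDeg) : D.apery r % D.projDeg = r :=
  (Nat.sInf_mem (D.apery_set_nonempty r)).2

/-- An Apéry number is the least nongap of its residue class. -/
theorem apery_le {n : ℕ} (hn : n ∉ D.gaps) {r : Fin D.projDeg} (hr : n % D.projDeg = r) :
    D.apery r ≤ n :=
  Nat.sInf_le ⟨hn, hr⟩

/-- The Apéry number of the class of `0` is `0`. -/
theorem apery_zero (hp : 0 < D.projDeg) : D.apery ⟨0, hp⟩ = 0 :=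
  Nat.le_zero.mp (D.apery_le D.zero_notMem (Nat.zero_mod _))

/-- Adding multiples of `projDeg` to a nongap gives a nongap. -/
theorem add_mul_notMem {a : ℕ} (ha : a ∉ D.gaps) (k : ℕ) : a + k * D.projDeg ∉ D.gaps := by
  induction k with
  | zero => simpa using ha
  | succ k ih =>
    rw [Nat.succ_mul, ← Nat.add_assoc]
    exact D.add_notMem _ _ ih D.projDeg_notMem

/-- `u - c` has degree at most `projDeg`. -/
theorem proj_sub_mem (c : K) : D.e D.projDeg - algebraMap K A c ∈ D.lev D.projDeg :=
  sub_mem (D.e_mem_lev le_rfl) (by
    rw [Algebra.algebraMap_eq_smul_one, ← D.e_zero]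
    exact Submodule.smul_mem _ _ (D.e_mem_lev (Nat.zero_le _)))

/-- `u - c` has leading coefficient one. -/
theorem coeff_proj_sub (c : K) : D.coeff D.projDeg (D.e D.projDeg - algebraMap K A c) = 1 := by
  rw [map_sub, D.coeff_e D.projDeg_notMem, if_pos rfl, Algebra.algebraMap_eq_smul_one,
    map_smul, ← D.e_zero, D.coeff_e D.zero_notMem, if_neg D.projDeg_pos.ne', smul_zero, sub_zero]

/-- The fibre equation is nonzero. -/
theorem proj_sub_ne_zero (c : K) : D.e D.projDeg - algebraMap K A c ≠ 0 := fun h => by
  simpa [h] using D.coeff_proj_sub c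

/-- The fibre equation has pole order `projDeg`. -/
theorem deg_proj_sub (c : K) : D.deg (D.e D.projDeg - algebraMap K A c) = D.projDeg :=
  D.deg_eq_of_mem_lev (D.proj_sub_mem c) (by rw [D.coeff_proj_sub]; exact one_ne_zero)

variable [IsDedekindDomain A]

/-- The fibres of the projection avoid infinity. -/
theorem none_notMem_zeros_proj_sub (c : K) :
    none ∉ D.zeros D.projDeg (D.e D.projDeg - algebraMap K A c) := fun h => by
  have h1 := Multiset.count_pos.mpr h
  rw [D.count_none_zeros, D.deg_proj_sub] at h1
  omega

end Fermat.Agent.MW.CurveBasis
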