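import Mathlib.RingTheory.ClassGroup.Basic
import Mathlib.RingTheory.DedekindDomain.Ideal.Lemmas
import Mathlib.LinearAlgebra.Basis.Basic
import Mathlib.LinearAlgebra.FiniteDimensional.Defs
import Mathlib.FieldTheory.IsAlgClosed.Basic
import Mathlib.LinearAlgebra.TensorProduct.Basis
import Mathlib.RingTheory.TensorProduct.Maps

/-!
# Algebras of functions on a curve with poles only at one point

`CurveBasis K A` records a `K`-basis of `A` indexed by a cofinite semigroup of pole orders,
multiplicative up to lower terms. For `K` algebraically closed and `A` Dedekind this is the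
affine ring of a smooth projective curve minus one rational point `O`; `gaps.card` is its genus.
A point of the curve is an element of `Option (A →ₐ[K] K)`, with `none` standing for `O`.
-/

set_option autoImplicit false

noncomputable section

open scoped TensorProduct
open Module

namespace Fermat.Agent.MW

/-- A curve given by a basis of its coordinate ring indexed by the pole orders at infinity. -/
structure CurveBasis (K A : Type) [Field K] [CommRing A] [Algebra K A] where
  gaps : Finset ℕ
  zero_notMem : 0 ∉ gaps
  add_notMem : ∀ m n : ℕ, m ∉ gaps → n ∉ gaps → m + n ∉ gaps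
  basis : Basis {n : ℕ // n ∉ gaps} K A
  basis_zero : basis ⟨0, zero_notMem⟩ = 1
  mul_basis : ∀ (m n : ℕ) (hm : m ∉ gaps) (hn : n ∉ gaps),
    basis ⟨m, hm⟩ * basis ⟨n, hn⟩ - basis ⟨m + n, add_notMem m n hm hn⟩ ∈
      Submodule.span K (basis '' {i | i.1 < m + n})

/-- A point: `none` is the point at infinity. -/
abbrev Pt (K A : Type) [Field K] [CommRing A] [Algebra K A] : Type := Option (A →ₐ[K] K)

namespace CurveBasis

variable {K A : Type} [Field K] [CommRing A] [Algebra K A] (D : CurveBasis K A)

/-- The genus: the number of gaps. -/
def genus : ℕ := D.gaps.card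

/-- The degree of the auxiliary projection. -/
def projDeg : ℕ := 2 * D.genus + 1

/-- The degree of the projective embedding used for heights and distances. -/
def embDeg : ℕ := 20 * D.genus + 20

/-- The basis function of pole order `n` (zero at gaps). -/
def e (n : ℕ) : A := if h : n ∈ D.gaps then 0 else D.basis ⟨n, h⟩

/-- The coefficient of `e n`. -/
def coeff (n : ℕ) : A →ₗ[K] K :=
  if h : n ∈ D.gaps then 0 else Finsupp.lapply ⟨n, h⟩ ∘ₗ D.basis.repr.toLinearMap

/-- The pole order (`0` for the zero function). -/
def deg (f : A) : ℕ := (D.basis.repr f).support.sup Subtype.val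

/-- Functions with pole order at most `n`. -/
def lev (n : ℕ) : Submodule K A := Submodule.span K (D.e '' Set.Iic n)

/-- The coefficient vector of a section of degree `n`. -/
def coeffVec (n : ℕ) (f : A) : Fin (n + 1) → K := fun i => D.coeff i f

/-- The value at a point of `f` seen as a section of degree `n`. -/
def evSec (n : ℕ) : Pt K A → A →ₗ[K] K
  | none => D.coeff n
  | some φ => φ.toLinearMap

/-- The coordinates of a point in the projective embedding. -/
def coord (P : Pt K A) : Fin (D.embDeg + 1) → K := fun i => D.evSec D.embDeg P (D.e i)

end CurveBasis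

section Divisors

variable {K A : Type} [Field K] [CommRing A] [Algebra K A]

/-- The ideal of functions vanishing at a finite point. -/
def ptIdeal (φ : A →ₐ[K] K) : Ideal A := RingHom.ker φ

variable [IsDedekindDomain A]

open scoped Classical in
/-- The class of `P - O`. -/
def pcl : Pt K A → Additive (ClassGroup A)
  | none => 0
  | some φ =>
    if h : ptIdeal φ ∈ nonZeroDivisors (Ideal A) then
      Additive.ofMul (ClassGroup.mk0 ⟨ptIdeal φ, h⟩)
    else 0

/-- The class of `E - (deg E) O`. -/
def cl (E : Multiset (Pt K A)) : Additive (ClassGroup A) := (E.map pcl).sum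

open scoped Classical in
/-- The finite points of the divisor of zeros of a function. -/
def zerosFin (f : A) : Multiset (A →ₐ[K] K) :=
  (UniqueFactorizationMonoid.normalizedFactors (Ideal.span {f})).filterMap fun M =>
    if h : ∃ φ : A →ₐ[K] K, ptIdeal φ = M then some h.choose else none

/-- The divisor of zeros of `f` as a section of degree `n`. -/
def CurveBasis.zeros (D : CurveBasis K A) (n : ℕ) (f : A) : Multiset (Pt K A) :=
  (zerosFin f).map some + Multiset.replicate (n - D.deg f) none

/-- No divisor of smaller degree lies in the class of `E`. -/
def MinRep (E : Multiset (Pt K A)) : Prop :=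
  ∀ E' : Multiset (Pt K A), cl E' = cl E → Multiset.card E ≤ Multiset.card E'

/-- `g` distinct finite points forming the only effective divisor of degree `≤ g` in their
class. -/
def CurveBasis.Good (D : CurveBasis K A) (E : Multiset (Pt K A)) : Prop :=
  E.Nodup ∧ Multiset.card E = D.genus ∧ none ∉ E ∧
    ∀ E' : Multiset (Pt K A), Multiset.card E' ≤ D.genus → cl E' = cl E → E' = E

end Divisors

section BaseChange

variable {K A : Type} [Field K] [CommRing A] [Algebra K A]

/-- Extension of the scalars of a curve basis. -/
def CurveBasis.baseChange (D : CurveBasis K A) (L : Type) [Field L] [Algebra K L] :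
    CurveBasis L (L ⊗[K] A) where
  gaps := D.gaps
  zero_notMem := D.zero_notMem
  add_notMem := D.add_notMem
  basis := D.basis.baseChange L
  basis_zero := by rw [Basis.baseChange_apply, D.basis_zero]; rfl
  mul_basis m n hm hn := by
    simp only [Basis.baseChange_apply, Algebra.TensorProduct.tmul_mul_tmul, mul_one,
      ← TensorProduct.tmul_sub]
    have h := Submodule.mem_map_of_mem (f := (TensorProduct.mk K L A) 1) (D.mul_basis m n hm hn)
    rw [Submodule.map_span, ← Set.image_comp] at h
    have h' := Submodule.span_le_restrictScalars K L _ h
    simp only [TensorProduct.mk_apply, Submodule.restrictScalars_mem] at h'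
    exact h'


/-- A point seen over an extension field. -/
def mapPt (L : Type) [Field L] [Algebra K L] : Pt K A → Pt L (L ⊗[K] A) :=
  Option.map fun φ =>
    Algebra.TensorProduct.lift (AlgHom.id L L) ((Algebra.ofId K L).comp φ)
      (fun _ _ => Commute.all _ _)

/-- The point has its coordinates in `L₀`. -/
def DefinedOver {L : Type} [Field L] [Algebra K L] (L₀ : IntermediateField K L) :
    Pt L (L ⊗[K] A) → Prop
  | none => True
  | some φ => ∀ f : A, φ (1 ⊗ₜ f) ∈ L₀

end BaseChange

end Fermat.Agent.MW
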