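import Fermat.Agent.MW.Core.Defs
import Mathlib.Algebra.Polynomial.AlgebraMap
import Mathlib.LinearAlgebra.LinearIndependent.Defs

/-!
# Families of sections with prescribed base divisor

Base families, canonical families, the least nongaps `apery` modulo `projDeg` and the trace-dual
data `DualData`.
-/

set_option autoImplicit false

noncomputable section

open scoped TensorProduct Classical

namespace Fermat.Agent.MW

variable {K A : Type} [Field K] [CommRing A] [Algebra K A] [IsDedekindDomain A]

/-- A family of sections of degree `k * embDeg` whose common zeros are exactly `R`. -/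
structure BaseFamily (D : CurveBasis K A) (ι : Type) where
  k : ℕ
  W : ι → A
  mem : ∀ i, W i ∈ D.lev (k * D.embDeg)
  R : Multiset (Pt K A)
  le_zeros : ∀ w ∈ Submodule.span K (Set.range W), w ≠ 0 → R ≤ D.zeros (k * D.embDeg) w
  exact : ∀ P : Pt K A, ∃ i, W i ≠ 0 ∧
    (D.zeros (k * D.embDeg) (W i)).count P = R.count P

/-- A family of `g` independent sections cutting out a system of degree at most `2g - 2`. -/
structure CanonFamily (D : CurveBasis K A) extends BaseFamily D (Fin D.genus) where
  indep : LinearIndependent K W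
  card_R : k * D.embDeg + 2 ≤ Multiset.card R + 2 * D.genus

/-- The least nongap in a residue class modulo `projDeg`. -/
def CurveBasis.apery (D : CurveBasis K A) (i : Fin D.projDeg) : ℕ :=
  sInf {n : ℕ | n ∉ D.gaps ∧ n % D.projDeg = i}

/-- The trace-dual family `Δ • e*_r` of the basis of `A` over `K[e projDeg]`. -/
structure DualData (D : CurveBasis K A) extends BaseFamily D (Fin D.projDeg) where
  δ : ℕ
  Δ : Polynomial K
  natDegree_Δ : Δ.natDegree = δ
  Δ_ne_zero : Δ ≠ 0
  deg_W : ∀ i, D.deg (W i) + D.apery i = D.projDeg * δ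
  W_ne_zero : ∀ i, W i ≠ 0
  card_R : Multiset.card R + 2 * D.genus + D.projDeg = k * D.embDeg + 1
  /-- Evaluation of the dual family at a point of a fibre, against functions vanishing at the
  other points of the fibre. -/
  fiber_dual : ∀ (L : Type) [Field L] [Algebra K L] [IsAlgClosed L]
    [IsDedekindDomain (L ⊗[K] A)] (φ : L ⊗[K] A →ₐ[L] L) (Qs : Multiset (Pt L (L ⊗[K] A)))
    (f : L ⊗[K] A) (p : Fin D.projDeg → L),
    (D.baseChange L).zeros D.projDeg
        (1 ⊗ₜ D.e D.projDeg - algebraMap L _ (φ (1 ⊗ₜ D.e D.projDeg))) = some φ ::ₘ Qs →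
    (f = 0 ∨ Qs ≤ (zerosFin f).map some) →
    (f - ∑ j, p j • ((1 : L) ⊗ₜ D.e (D.apery j))) ∈
      Ideal.span {(1 : L) ⊗ₜ D.e D.projDeg - algebraMap L _ (φ (1 ⊗ₜ D.e D.projDeg))} →
    ∀ i, φ (1 ⊗ₜ W i) * φ f = Polynomial.aeval (φ (1 ⊗ₜ D.e D.projDeg)) Δ * p i

end Fermat.Agent.MW
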