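import Fermat.Agent.MW.Core.Defs
import Mathlib.LinearAlgebra.Dimension.Constructions
import Mathlib.RingTheory.Finiteness.Basic
import Mathlib.RingTheory.FiniteType
import Mathlib.Algebra.Algebra.Subalgebra.Basic

/-!
# Pole orders: leading terms, filtration, finiteness

`deg` is additive, the filtration `lev n` has dimension `n + 1 - g` for `n ≥ 2g`, nonzero principal
ideals have finite colength and the algebra is of finite type.
-/

set_option autoImplicit false

noncomputable section

open scoped TensorProduct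
open Module

namespace Fermat.Agent.MW.CurveBasis

variable {K A : Type} [Field K] [CommRing A] [Algebra K A] (D : CurveBasis K A)

theorem e_eq_basis {n : ℕ} (hn : n ∉ D.gaps) : D.e n = D.basis ⟨n, hn⟩ := dif_neg hn

/-- The basis function at a gap is `0`. -/
theorem e_gap {n : ℕ} (hn : n ∈ D.gaps) : D.e n = 0 := dif_pos hn

/-- The basis function of pole order `0` is `1`. -/
theorem e_zero : D.e 0 = 1 := by rw [D.e_eq_basis D.zero_notMem, D.basis_zero]

/-- The coefficients of the basis vectors. -/
theorem coeff_basis (m : ℕ) (i : {n : ℕ // n ∉ D.gaps}) :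
    D.coeff m (D.basis i) = if m = i.1 then 1 else 0 := by
  unfold CurveBasis.coeff
  split_ifs with h1 h2 h2
  · exact absurd (h2 ▸ h1) i.2
  · rfl
  · subst h2; simp
  · have : (⟨m, h1⟩ : {n : ℕ // n ∉ D.gaps}) ≠ i := fun h => h2 (congrArg Subtype.val h)
    simp [Finsupp.single_eq_of_ne this]

/-- The coefficients of `e n` at a nongap. -/
theorem coeff_e {m n : ℕ} (hn : n ∉ D.gaps) : D.coeff m (D.e n) = if m = n then 1 else 0 := by
  rw [D.e_eq_basis hn, coeff_basis]

/-- Coefficients at gaps vanish. -/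
theorem coeff_gap {m : ℕ} (hm : m ∈ D.gaps) (f : A) : D.coeff m f = 0 := by
  simp [CurveBasis.coeff, hm]

theorem coeff_eq_repr {m : ℕ} (hm : m ∉ D.gaps) (f : A) :
    D.coeff m f = D.basis.repr f ⟨m, hm⟩ := by
  simp [CurveBasis.coeff, hm]

/-- Membership in `lev n` means vanishing of the higher coefficients. -/
theorem mem_lev_iff {n : ℕ} {f : A} : f ∈ D.lev n ↔ ∀ m, n < m → D.coeff m f = 0 := by
  constructor
  · intro hf m hm
    have : D.lev n ≤ LinearMap.ker (D.coeff m) := by
      refine Submodule.span_le.mpr ?_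
      rintro _ ⟨i, hi, rfl⟩
      by_cases hg : i ∈ D.gaps
      · simp [D.e_gap hg]
      · simp [D.coeff_e hg, Nat.ne_of_gt (lt_of_le_of_lt (Set.mem_Iic.mp hi) hm)]
    exact this hf
  · intro h
    rw [← D.basis.linearCombination_repr f, Finsupp.linearCombination_apply]
    refine Submodule.sum_mem _ fun i hi => ?_
    by_cases hin : i.1 ≤ n
    · exact Submodule.smul_mem _ _ (Submodule.subset_span ⟨i.1, hin, D.e_eq_basis i.2⟩)
    · have := h i.1 (not_le.mp hin)
      rw [D.coeff_eq_repr i.2] at this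
      simp [this]

/-- Coefficients above the pole order vanish. -/
theorem coeff_eq_zero_of_deg_lt {f : A} {m : ℕ} (h : D.deg f < m) : D.coeff m f = 0 := by
  by_cases hm : m ∈ D.gaps
  · exact D.coeff_gap hm f
  rw [D.coeff_eq_repr hm]
  by_contra hne
  exact absurd (Finset.le_sup (f := Subtype.val) (Finsupp.mem_support_iff.mpr hne)) (not_le.mpr h)

/-- A function lies in the filtration step of its pole order. -/
theorem mem_lev_deg (f : A) : f ∈ D.lev (D.deg f) :=
  D.mem_lev_iff.mpr fun _ h => D.coeff_eq_zero_of_deg_lt h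

/-- A function in `lev n` has pole order at most `n`. -/
theorem deg_le_of_mem_lev {n : ℕ} {f : A} (h : f ∈ D.lev n) : D.deg f ≤ n := by
  refine Finset.sup_le fun i hi => not_lt.mp fun hlt => ?_
  have := D.mem_lev_iff.mp h i.1 hlt
  rw [D.coeff_eq_repr i.2] at this
  exact Finsupp.mem_support_iff.mp hi this

/-- `lev n` consists of the functions of pole order at most `n`. -/
theorem mem_lev_iff_deg_le {n : ℕ} {f : A} : f ∈ D.lev n ↔ D.deg f ≤ n :=
  ⟨D.deg_le_of_mem_lev, fun h => D.mem_lev_iff.mpr fun _ hm =>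
    D.coeff_eq_zero_of_deg_lt (lt_of_le_of_lt h hm)⟩

/-- The filtration is increasing. -/
theorem lev_mono {m n : ℕ} (h : m ≤ n) : D.lev m ≤ D.lev n :=
  Submodule.span_mono (Set.image_mono (Set.Iic_subset_Iic.mpr h))

/-- `e i` lies in `lev n` for `i ≤ n`. -/
theorem e_mem_lev {i n : ℕ} (h : i ≤ n) : D.e i ∈ D.lev n :=
  Submodule.subset_span ⟨i, h, rfl⟩

/-- The pole order of `0` is `0`. -/
theorem deg_zero : D.deg 0 = 0 := by simp [CurveBasis.deg]

/-- The leading coefficient of a nonzero function is nonzero. -/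
theorem coeff_deg_ne_zero {f : A} (hf : f ≠ 0) : D.coeff (D.deg f) f ≠ 0 := by
  have hne : (D.basis.repr f).support.Nonempty := by
    simpa [Finsupp.support_nonempty_iff] using hf
  obtain ⟨i, hi, hmax⟩ := Finset.exists_mem_eq_sup _ hne Subtype.val
  have hdeg : D.deg f = i.1 := hmax
  rw [hdeg, D.coeff_eq_repr i.2]
  exact Finsupp.mem_support_iff.mp hi

/-- A pole order is never a gap. -/
theorem deg_notMem_gaps (f : A) : D.deg f ∉ D.gaps := by
  by_cases hf : f = 0
  · rw [hf, D.deg_zero]; exact D.zero_notMem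
  · exact fun h => D.coeff_deg_ne_zero hf (D.coeff_gap h f)

/-- A nonzero coefficient at the top of `lev n` forces pole order `n`. -/
theorem deg_eq_of_mem_lev {n : ℕ} {f : A} (h : f ∈ D.lev n) (hc : D.coeff n f ≠ 0) :
    D.deg f = n :=
  le_antisymm (D.deg_le_of_mem_lev h) (not_lt.mp fun hlt => hc (D.coeff_eq_zero_of_deg_lt hlt))

/-- The pole order of `e n` at a nongap is `n`. -/
theorem deg_e {n : ℕ} (hn : n ∉ D.gaps) : D.deg (D.e n) = n :=
  D.deg_eq_of_mem_lev (D.e_mem_lev le_rfl) (by simp [D.coeff_e hn])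

/-- `e n` is nonzero at a nongap. -/
theorem e_ne_zero [Nontrivial A] {n : ℕ} (hn : n ∉ D.gaps) : D.e n ≠ 0 := by
  rw [D.e_eq_basis hn]; exact D.basis.ne_zero _

/-- Strictly lower terms. -/
def low (n : ℕ) : Submodule K A := Submodule.span K (D.e '' Set.Iio n)

theorem low_le_lev (n : ℕ) : D.low n ≤ D.lev n :=
  Submodule.span_mono (Set.image_mono Set.Iio_subset_Iic_self)

theorem low_succ (n : ℕ) : D.low (n + 1) = D.lev n :=
  congrArg (fun s => Submodule.span K (D.e '' s)) (Set.ext fun _ => Nat.lt_succ_iff)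

theorem coeff_eq_zero_of_mem_low {n m : ℕ} {f : A} (h : f ∈ D.low n) (hm : n ≤ m) :
    D.coeff m f = 0 := by
  cases n with
  | zero =>
    have : f = 0 := by simpa [low, show Set.Iio 0 = (∅ : Set ℕ) by ext; simp] using h
    simp [this]
  | succ k => exact D.mem_lev_iff.mp (by rwa [← D.low_succ]) m (by omega)

/-- Removing the top term lowers the pole order. -/
theorem sub_coeff_smul_mem_low {n : ℕ} {f : A} (h : f ∈ D.lev n) :
    f - D.coeff n f • D.e n ∈ D.low n := by
  induction h using Submodule.span_induction with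
  | mem x hx =>
    obtain ⟨i, hi, rfl⟩ := hx
    rcases (Set.mem_Iic.mp hi).lt_or_eq with hlt | rfl
    · by_cases hg : i ∈ D.gaps
      · simp [D.e_gap hg]
      · simpa [D.coeff_e hg, Nat.ne_of_gt hlt, low] using
          (Submodule.subset_span ⟨i, hlt, rfl⟩ : D.e i ∈ D.low n)
    · by_cases hg : i ∈ D.gaps
      · simp [D.e_gap hg]
      · simp [D.coeff_e hg]
  | zero => simp
  | add a b _ _ ha hb =>
    simpa [map_add, add_smul, add_sub_add_comm] using add_mem ha hb
  | smul c x _ hx =>
    simpa [smul_sub, smul_smul] using Submodule.smul_mem _ c hx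

/-- `e m * e n` is `e (m + n)` up to lower terms. -/
theorem e_mul (m n : ℕ) (hm : m ∉ D.gaps) (hn : n ∉ D.gaps) :
    D.e m * D.e n - D.e (m + n) ∈ Submodule.span K (D.e '' Set.Iio (m + n)) := by
  rw [D.e_eq_basis hm, D.e_eq_basis hn, D.e_eq_basis (D.add_notMem m n hm hn)]
  refine Submodule.span_mono ?_ (D.mul_basis m n hm hn)
  rintro _ ⟨i, hi, rfl⟩
  exact ⟨i.1, hi, D.e_eq_basis i.2⟩

theorem e_mul_mem_lev (m n : ℕ) : D.e m * D.e n ∈ D.lev (m + n) := by
  by_cases hm : m ∈ D.gaps
  · simp [D.e_gap hm]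
  by_cases hn : n ∈ D.gaps
  · simp [D.e_gap hn]
  have := add_mem (D.low_le_lev _ (D.e_mul m n hm hn)) (D.e_mem_lev (le_refl (m + n)))
  simpa using this

/-- The filtration by pole order is multiplicative. -/
theorem mul_mem_lev {m n : ℕ} {f g : A} (hf : f ∈ D.lev m) (hg : g ∈ D.lev n) :
    f * g ∈ D.lev (m + n) := by
  induction hf using Submodule.span_induction with
  | mem x hx =>
    obtain ⟨i, hi, rfl⟩ := hx
    induction hg using Submodule.span_induction with
    | mem y hy =>
      obtain ⟨j, hj, rfl⟩ := hy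
      exact D.lev_mono (Nat.add_le_add hi hj) (D.e_mul_mem_lev i j)
    | zero => simp
    | add a b _ _ ha hb => simpa [mul_add] using add_mem ha hb
    | smul c a _ ha => simpa [mul_smul_comm] using Submodule.smul_mem _ c ha
  | zero => simp
  | add a b _ _ ha hb => simpa [add_mul] using add_mem ha hb
  | smul c a _ ha => simpa [smul_mul_assoc] using Submodule.smul_mem _ c ha

theorem low_mul_lev {m n : ℕ} {f g : A} (hf : f ∈ D.low m) (hg : g ∈ D.lev n) :
    f * g ∈ D.low (m + n) := by
  cases m with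
  | zero =>
    have : f = 0 := by simpa [low, show Set.Iio 0 = (∅ : Set ℕ) by ext; simp] using hf
    simp [this]
  | succ k =>
    rw [D.low_succ] at hf
    rw [show k + 1 + n = k + n + 1 by omega, D.low_succ]
    exact D.mul_mem_lev hf hg

/-- Leading coefficients multiply. -/
theorem coeff_mul {m n : ℕ} {f g : A} (hf : f ∈ D.lev m) (hg : g ∈ D.lev n) :
    D.coeff (m + n) (f * g) = D.coeff m f * D.coeff n g := by
  by_cases hmn : m ∈ D.gaps ∨ n ∈ D.gaps
  · rcases hmn with h | h
    · have h' := D.sub_coeff_smul_mem_low hf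
      rw [D.e_gap h, smul_zero, sub_zero] at h'
      rw [D.coeff_gap h, zero_mul]
      exact D.coeff_eq_zero_of_mem_low (D.low_mul_lev h' hg) le_rfl
    · have h' := D.sub_coeff_smul_mem_low hg
      rw [D.e_gap h, smul_zero, sub_zero] at h'
      rw [D.coeff_gap h, mul_zero, mul_comm f g, add_comm m n]
      exact D.coeff_eq_zero_of_mem_low (D.low_mul_lev h' hf) le_rfl
  push Not at hmn
  set c := D.coeff m f
  set d := D.coeff n g
  have h1 : f * g - (c * d) • D.e (m + n) ∈ D.low (m + n) := by
    have e1 := D.low_mul_lev (D.sub_coeff_smul_mem_low hf) hg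
    have e2 := D.low_mul_lev (D.sub_coeff_smul_mem_low hg)
      (Submodule.smul_mem _ c (D.e_mem_lev (le_refl m)))
    rw [add_comm n m] at e2
    have e3 := Submodule.smul_mem _ (c * d) (D.e_mul m n hmn.1 hmn.2)
    have : f * g - (c * d) • D.e (m + n) =
        (f - c • D.e m) * g + (g - d • D.e n) * (c • D.e m) +
          (c * d) • (D.e m * D.e n - D.e (m + n)) := by
      simp only [Algebra.smul_def, map_mul]; ring
    rw [this]
    exact add_mem (add_mem e1 e2) e3
  have := D.coeff_eq_zero_of_mem_low h1 le_rfl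
  rw [map_sub, map_smul, D.coeff_e (D.add_notMem m n hmn.1 hmn.2)] at this
  simpa [sub_eq_zero] using this

/-- The pole order is additive. -/
theorem deg_mul {f g : A} (hf : f ≠ 0) (hg : g ≠ 0) : D.deg (f * g) = D.deg f + D.deg g :=
  D.deg_eq_of_mem_lev (D.mul_mem_lev (D.mem_lev_deg f) (D.mem_lev_deg g)) (by
    rw [D.coeff_mul (D.mem_lev_deg f) (D.mem_lev_deg g)]
    exact mul_ne_zero (D.coeff_deg_ne_zero hf) (D.coeff_deg_ne_zero hg))

/-- Constants have pole order `0`. -/
theorem deg_algebraMap (c : K) : D.deg (algebraMap K A c) = 0 := by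
  refine Nat.eq_zero_of_le_zero (D.deg_le_of_mem_lev ?_)
  rw [Algebra.algebraMap_eq_smul_one, ← D.e_zero]
  exact Submodule.smul_mem _ _ (D.e_mem_lev le_rfl)

/-- A function of pole order `0` is constant. -/
theorem eq_algebraMap_of_deg_eq_zero {f : A} (h : D.deg f = 0) :
    f = algebraMap K A (D.coeff 0 f) := by
  have h' := D.sub_coeff_smul_mem_low (D.mem_lev_iff_deg_le.mpr h.le)
  rw [low, show Set.Iio 0 = (∅ : Set ℕ) by ext; simp, Set.image_empty, Submodule.span_empty,
    Submodule.mem_bot, sub_eq_zero, D.e_zero, ← Algebra.algebraMap_eq_smul_one] at h'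
  exact h'

/-- Every `n ≥ 2g` is a nongap. -/
theorem notMem_gaps_of_le {n : ℕ} (hn : 2 * D.genus ≤ n) : n ∉ D.gaps := by
  intro hgap
  have hcard : ((Finset.range (n + 1)).filter (· ∉ D.gaps)).card ≤ D.gaps.card := by
    refine Finset.card_le_card_of_injOn (fun i => n - i) (fun i hi => ?_) fun i hi j hj h => ?_
    · simp only [Finset.coe_filter, Finset.mem_range, Set.mem_ofPred_eq] at hi
      show n - i ∈ D.gaps
      by_contra h
      have h' := D.add_notMem i (n - i) hi.2 h
      rw [Nat.add_sub_cancel' (Nat.lt_succ_iff.mp hi.1)] at h'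
      exact h' hgap
    · simp only [Finset.coe_filter, Finset.mem_range, Set.mem_ofPred_eq] at hi hj
      simp only at h
      have := hi.1
      have := hj.1
      omega
  have h2 := Finset.card_filter_add_card_filter_not (s := Finset.range (n + 1))
    (fun i => i ∉ D.gaps)
  have h3 : ((Finset.range (n + 1)).filter fun i => ¬i ∉ D.gaps).card ≤ D.gaps.card :=
    Finset.card_le_card fun i hi => not_not.mp (Finset.mem_filter.mp hi).2
  rw [Finset.card_range] at h2
  unfold CurveBasis.genus at hn
  omega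

/-- `2 * genus + 1` is not a gap. -/
theorem exists_notMem_gaps_pos : 2 * D.genus + 1 ∉ D.gaps := D.notMem_gaps_of_le (by omega)

/-- The subspace of functions with pole order at most `n` is finite-dimensional. -/
instance finiteDimensional_lev (n : ℕ) : FiniteDimensional K (D.lev n) :=
  FiniteDimensional.span_of_finite K ((Set.finite_Iic n).image D.e)

/-- The dimension of `lev n` is the number of nongaps up to `n`. -/
theorem finrank_lev_eq_card (n : ℕ) :
    finrank K (D.lev n) = ((Finset.range (n + 1)).filter (· ∉ D.gaps)).card := by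
  let s : Finset {i : ℕ // i ∉ D.gaps} :=
    ((Finset.range (n + 1)).filter (· ∉ D.gaps)).subtype _
  have hspan : D.lev n = Submodule.span K (Set.range fun i : s => D.basis i) := by
    refine le_antisymm (Submodule.span_le.mpr ?_) (Submodule.span_le.mpr ?_)
    · rintro _ ⟨i, hi, rfl⟩
      by_cases hg : i ∈ D.gaps
      · simp [D.e_gap hg]
      · exact Submodule.subset_span ⟨⟨⟨i, hg⟩, by simp [s, Set.mem_Iic.mp hi, hg]⟩,
          (D.e_eq_basis hg).symm⟩
    · rintro _ ⟨i, rfl⟩
      obtain ⟨⟨k, hk⟩, hi⟩ := i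
      have hkn : k ≤ n := Nat.lt_succ_iff.mp
        (Finset.mem_range.mp (Finset.mem_filter.mp (Finset.mem_subtype.mp hi)).1)
      exact Submodule.subset_span ⟨k, hkn, D.e_eq_basis hk⟩
  rw [hspan, finrank_span_eq_card
    (show LinearIndependent K fun i : s => D.basis i from
      D.basis.linearIndependent.comp _ Subtype.val_injective)]
  simp [s, Finset.card_subtype, Finset.filter_filter]

/-- Riemann–Roch in degree `n ≥ 2 * genus - 1`. -/
theorem finrank_lev {n : ℕ} (hn : 2 * D.genus ≤ n + 1) :
    finrank K (D.lev n) = n + 1 - D.genus := by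
  rw [D.finrank_lev_eq_card]
  have hsub : D.gaps ⊆ Finset.range (n + 1) := fun i hi => Finset.mem_range.mpr <| by
    by_contra h
    exact D.notMem_gaps_of_le (by omega) hi
  rw [Finset.filter_not, Finset.filter_mem_eq_inter, Finset.inter_eq_right.mpr hsub,
    Finset.card_sdiff_of_subset hsub, Finset.card_range]
  rfl

/-- The Riemann inequality. -/
theorem le_finrank_lev (n : ℕ) : n + 1 ≤ finrank K (D.lev n) + D.genus := by
  rw [D.finrank_lev_eq_card]
  have h2 := Finset.card_filter_add_card_filter_not (s := Finset.range (n + 1))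
    (fun i => i ∉ D.gaps)
  have h3 : ((Finset.range (n + 1)).filter fun i => ¬i ∉ D.gaps).card ≤ D.genus :=
    Finset.card_le_card fun i hi => not_not.mp (Finset.mem_filter.mp hi).2
  rw [Finset.card_range] at h2
  omega

/-- Reduction modulo a nonzero function. -/
theorem mem_sup_lev {I : Ideal A} {f : A} (hf : f ≠ 0) (hfI : f ∈ I) (x : A) :
    x ∈ I.restrictScalars K ⊔ D.lev (D.deg f + 2 * D.genus) := by
  suffices ∀ m, ∀ x ∈ D.lev m, x ∈ I.restrictScalars K ⊔ D.lev (D.deg f + 2 * D.genus) from
    this _ x (D.mem_lev_deg x)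
  intro m
  induction m using Nat.strong_induction_on with
  | _ m ih =>
    intro x hx
    by_cases hm : m ≤ D.deg f + 2 * D.genus
    · exact Submodule.mem_sup_right (D.lev_mono hm hx)
    have hj : m - D.deg f ∉ D.gaps := D.notMem_gaps_of_le (by omega)
    set c := D.coeff m x * (D.coeff (D.deg f) f)⁻¹
    have hy : f * D.e (m - D.deg f) ∈ D.lev m := by
      simpa [Nat.add_sub_cancel' (show D.deg f ≤ m by omega)] using
        D.mul_mem_lev (D.mem_lev_deg f) (D.e_mem_lev (le_refl (m - D.deg f)))
    have hz : x - c • (f * D.e (m - D.deg f)) ∈ D.lev (m - 1) := by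
      refine D.mem_lev_iff.mpr fun i hi => ?_
      rcases Nat.lt_or_ge m i with h | h
      · simp [D.mem_lev_iff.mp hx i h, D.mem_lev_iff.mp hy i h]
      · obtain rfl : i = m := by omega
        have hc := D.coeff_mul (D.mem_lev_deg f) (D.e_mem_lev (le_refl (i - D.deg f)))
        rw [Nat.add_sub_cancel' (show D.deg f ≤ i by omega), D.coeff_e hj, if_pos rfl,
          mul_one] at hc
        simp only [map_sub, map_smul, hc, smul_eq_mul, c]
        rw [mul_assoc, inv_mul_cancel₀ (D.coeff_deg_ne_zero hf), mul_one, sub_self]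
    rw [show x = c • (f * D.e (m - D.deg f)) + (x - c • (f * D.e (m - D.deg f))) by abel]
    exact add_mem (Submodule.mem_sup_left (Submodule.smul_mem _ c
      (I.mul_mem_right _ hfI))) (ih (m - 1) (by omega) _ hz)

include D in
/-- Every nonzero ideal has a complement of finite dimension. -/
theorem finite_quotient (I : Ideal A) (hI : I ≠ ⊥) : FiniteDimensional K (A ⧸ I) := by
  obtain ⟨f, hfI, hf⟩ := Submodule.exists_mem_ne_zero_of_ne_bot hI
  let q : D.lev (D.deg f + 2 * D.genus) →ₗ[K] A ⧸ I :=
    (Ideal.Quotient.mkₐ K I).toLinearMap.comp (Submodule.subtype _)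
  refine Module.Finite.of_surjective q fun y => ?_
  obtain ⟨x, rfl⟩ := Ideal.Quotient.mk_surjective y
  obtain ⟨a, ha, b, hb, rfl⟩ := Submodule.mem_sup.mp (D.mem_sup_lev hf hfI x)
  refine ⟨⟨b, hb⟩, ?_⟩
  simp [q, Ideal.Quotient.eq_zero_iff_mem.mpr ha]

/-- The coordinate ring is generated by the basis functions of pole order `≤ 4 * genus + 2`. -/
theorem adjoin_e_eq_top : Algebra.adjoin K (D.e '' Set.Iic (4 * D.genus + 2)) = ⊤ := by
  refine top_le_iff.mp fun x _ => ?_
  set S := Algebra.adjoin K (D.e '' Set.Iic (4 * D.genus + 2))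
  suffices ∀ m, D.lev m ≤ Subalgebra.toSubmodule S from this _ (D.mem_lev_deg x)
  intro m
  induction m using Nat.strong_induction_on with
  | _ m ih =>
    refine Submodule.span_le.mpr ?_
    rintro _ ⟨i, hi, rfl⟩
    rcases (Set.mem_Iic.mp hi).lt_or_eq with hlt | rfl
    · exact ih i hlt (D.e_mem_lev le_rfl)
    by_cases hsmall : i ≤ 4 * D.genus + 2
    · exact Algebra.subset_adjoin ⟨i, hsmall, rfl⟩
    by_cases hg : i ∈ D.gaps
    · simp [D.e_gap hg]
    set j := 2 * D.genus + 1
    have hj : j ∉ D.gaps := D.exists_notMem_gaps_pos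
    have hij : i - j ∉ D.gaps := D.notMem_gaps_of_le (by omega)
    have hji : j + (i - j) = i := Nat.add_sub_cancel' (by omega)
    have h := D.e_mul j (i - j) hj hij
    rw [hji] at h
    have hlow : D.low i ≤ Subalgebra.toSubmodule S := by
      refine Submodule.span_le.mpr ?_
      rintro _ ⟨k, hk, rfl⟩
      exact ih k hk (D.e_mem_lev le_rfl)
    have hprod : D.e j * D.e (i - j) ∈ S :=
      S.mul_mem (ih j (by omega) (D.e_mem_lev le_rfl)) (ih (i - j) (by omega) (D.e_mem_lev le_rfl))
    have := S.sub_mem hprod (hlow h)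
    simpa using this

include D in
/-- The algebra is of finite type. -/
theorem finiteType : Algebra.FiniteType K A :=
  ⟨Subalgebra.fg_def.mpr ⟨_, (Set.finite_Iic _).image D.e, D.adjoin_e_eq_top⟩⟩

/-- The basis functions of a base change. -/
theorem baseChange_e (L : Type) [Field L] [Algebra K L] (n : ℕ) :
    (D.baseChange L).e n = 1 ⊗ₜ D.e n := by
  unfold CurveBasis.e
  split_ifs with h1 h2 h2
  · simp
  · exact absurd h1 h2
  · exact absurd h2 h1
  · exact Basis.baseChange_apply ..

/-- The coefficients of a base change on pure tensors. -/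
theorem baseChange_coeff (L : Type) [Field L] [Algebra K L] (n : ℕ) (c : L) (f : A) :
    (D.baseChange L).coeff n (c ⊗ₜ f) = c * algebraMap K L (D.coeff n f) := by
  by_cases hn : n ∈ D.gaps
  · rw [(D.baseChange L).coeff_gap (show n ∈ (D.baseChange L).gaps from hn), D.coeff_gap hn]
    simp
  · rw [(D.baseChange L).coeff_eq_repr (show n ∉ (D.baseChange L).gaps from hn),
      D.coeff_eq_repr hn]
    show ((D.basis.baseChange L).repr (c ⊗ₜ f)) ⟨n, hn⟩ = _
    rw [Basis.baseChange_repr_tmul, Algebra.smul_def, mul_comm]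

/-- Pole orders are invariant under base change. -/
theorem baseChange_deg (L : Type) [Field L] [Algebra K L] (f : A) :
    (D.baseChange L).deg (1 ⊗ₜ f) = D.deg f := by
  by_cases hf : f = 0
  · simp [hf, deg_zero]
  refine (D.baseChange L).deg_eq_of_mem_lev ((D.baseChange L).mem_lev_iff.mpr fun m hm => ?_) ?_
  · simp [D.baseChange_coeff, D.coeff_eq_zero_of_deg_lt hm]
  · simp [D.baseChange_coeff, D.coeff_deg_ne_zero hf]

/-- Base change respects the filtration. -/
theorem one_tmul_mem_lev (L : Type) [Field L] [Algebra K L] {n : ℕ} {f : A} (hf : f ∈ D.lev n) :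
    (1 : L) ⊗ₜ[K] f ∈ (D.baseChange L).lev n :=
  (D.baseChange L).mem_lev_iff.mpr fun m hm => by
    simp [D.baseChange_coeff, D.mem_lev_iff.mp hf m hm]

end Fermat.Agent.MW.CurveBasis
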